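import Fermat.Agent.LevelLowering.Tangent.Points
import Fermat.Agent.LevelLowering.Selmer.Bound

/-!
# Generators of the trace algebra at the sites

The tangent vectors killing the site elements give classes which are split at the sites and have
the local shapes of the points elsewhere, so that the tangent bound counts the further generators
(`exists_site_generators`).  Used by `LevelLowering.Core.Datum`.
-/

set_option autoImplicit false

noncomputable section

open IsLocalRing Matrix
open scoped TrivSqZeroExt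

namespace FLTAgent.LevelLowering

open FLTAgent.Density (GalQ Qbar)
open FLTAgent.DefRing FLTAgent.GaloisAttach FLTAgent.HeckePoints FLTAgent.ModularityLifting
  FLTAgent.ModularityLifting.Engine

/-- A tangent vector with a coboundary as class vanishes. -/
theorem pointDer_eq_zero_of_coboundary {p : ℕ} [Fact p.Prime] {O C : Type} [CommRing O] [IsDomain O]
    [IsDiscreteValuationRing O] [IsAdicComplete (maximalIdeal O) O]
    [CommRing C] [IsDomain C] [IsDiscreteValuationRing C] [IsAdicComplete (maximalIdeal C) C]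
    [CharZero C] [Algebra O C] [Module.Finite O C] [IsLocalHom (algebraMap O C)]
    {hpC : (p : C) ∈ maximalIdeal C} {X : Type} [Finite X] [Nonempty X] {S' : Finset ℕ}
    {c : X → ℕ → C} {f : X → GalQ → C} {hpO : (p : O) ∈ maximalIdeal O}
    {R : ResidualRep p (ResidueField O)}
    {F : Frame (trVal O f) ((algebraMap O (trAlg O f)).toMonoidHom.comp (cycChar hpO))}
    {π : trAlg O f →ₐ[O] ResidueField O} (H : PointsData hpC S' c hpO R F π)
    [NeZero (2 : ResidueField O)] {δ : trAlg O f → ResidueField O} (hδ : δ ∈ pointDer π)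
    (h : tangentFun H.rep R.rep δ ∈ adCoboundaries R.rep) : δ = 0 := by
  obtain ⟨a, ha⟩ := mem_adCoboundaries.mp h
  have hD : ∀ σ, (H.rep σ).map δ = a * R.rep σ - R.rep σ * a := fun σ => by
    rw [← tangentFun_mul_rep H.rep R.rep δ σ, ← ha, cobFun_mul_rep]
  have hγ : H.rep F.γ = !![F.α, 0; 0, F.β] := F.rep_gamma _
  have hr : H.rep F.r 1 0 = 1 := F.rep_r _
  have hRγ : R.rep F.γ = !![1, 0; 0, -1] := by rw [H.conj]; exact R.conj
  have hdiag : ∀ i j, (H.rep F.γ).map δ i j = 0 := fun i j => by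
    rw [hγ, H.diag.1, H.diag.2]
    fin_cases i <;> fin_cases j <;>
      simp [pointDer_one hδ, pointDer_zero hδ, pointDer_neg hδ]
  have h01 := hdiag 0 1
  have h10 := hdiag 1 0
  rw [hD, hRγ, Matrix.sub_apply, Matrix.mul_apply, Matrix.mul_apply, Fin.sum_univ_two,
    Fin.sum_univ_two] at h01 h10
  simp at h01 h10
  have h2 : (2 : ResidueField O) ≠ 0 := NeZero.ne 2
  have a01 : a 0 1 = 0 := mul_left_cancel₀ h2 (by linear_combination -h01)
  have a10 : a 1 0 = 0 := mul_left_cancel₀ h2 (by linear_combination h10)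
  have hrd := congrFun (congrFun (hD F.r) 1) 0
  rw [Matrix.map_apply, hr, pointDer_one hδ, Matrix.sub_apply, Matrix.mul_apply, Matrix.mul_apply,
    Fin.sum_univ_two, Fin.sum_univ_two, H.elem, R.hr, a10] at hrd
  have a00 : a 0 0 = a 1 1 := by linear_combination hrd
  have hscal : a = a 1 1 • (1 : Matrix (Fin 2) (Fin 2) (ResidueField O)) := by
    ext i j
    fin_cases i <;> fin_cases j <;> simp [a01, a10, a00]
  have hzero : ∀ σ, (H.rep σ).map δ = 0 := fun σ => by
    rw [hD, hscal, smul_mul_assoc, mul_smul_comm, one_mul, mul_one, sub_self]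
  funext t
  obtain ⟨t, ht⟩ := t
  induction ht using Algebra.adjoin_induction with
  | mem z hz =>
    obtain ⟨g, rfl⟩ := hz
    show δ (trVal O f g) = 0
    rw [← F.trace_rep (isPseudoRep_trVal (isPseudoRep_family H.pts hpO)) g, Matrix.trace_fin_two,
      hδ.1]
    have h0 := congrFun (congrFun (hzero g) 0) 0
    have h1 := congrFun (congrFun (hzero g) 1) 1
    rw [Matrix.map_apply, Matrix.zero_apply] at h0 h1
    show δ (H.rep g 0 0) + δ (H.rep g 1 1) = 0
    rw [h0, h1, add_zero]
  | algebraMap o => exact hδ.2.2 o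
  | add y z hy hz ihy ihz =>
    show δ (⟨y, hy⟩ + ⟨z, hz⟩ : trAlg O f) = 0
    rw [hδ.1, ihy, ihz, Pi.zero_apply, Pi.zero_apply, add_zero]
  | mul y z hy hz ihy ihz =>
    show δ (⟨y, hy⟩ * ⟨z, hz⟩ : trAlg O f) = 0
    rw [hδ.2.1, ihy, ihz, Pi.zero_apply, Pi.zero_apply, mul_zero, mul_zero, add_zero]

section Generic

variable {O T : Type} [CommRing O] [IsLocalRing O] [CommRing T] [Algebra O T]
  {π : T →ₐ[O] ResidueField O} {N : MatRep T} {R : MatRep (ResidueField O)}

/-- The elements killed at the sites. -/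
private def siteElems (lam u : O) (N : MatRep T) (τ : ℕ → GalQ) (μ : ℕ → T) (AS AO : Finset ℕ) :
    Set T :=
  {algebraMap O T lam} ∪
    {z | ∃ v ∈ AS, ∃ i, z = coord (algebraMap O T u) (N (Start.frob v)) i ∨
      z = coord (algebraMap O T u) (N (τ v)) i} ∪
    {z | ∃ v ∈ AO, z = qform (coord (algebraMap O T u) (N (Start.frob v))) ∨ z = μ v}

/-- The site elements vanish at the residual point. -/
private theorem siteElems_residual (hN : IsTangentRep π N R) {lam u : O}
    (hlam : residue O lam = 0) (hu : 2 * u = 1) {τ : ℕ → GalQ} {μ : ℕ → T} {AS AO : Finset ℕ}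
    (hτ : ∀ v, v ∈ AS ∨ v ∈ AO → R (τ v) = 1)
    (hscalar : ∀ v ∈ AS, ∃ a : ResidueField O, R (Start.frob v) = a • 1)
    (hsq : ∀ v ∈ AO, (R (Start.frob v)).trace ^ 2 = 4 ∧ (R (Start.frob v)).det = 1)
    {kc : ℕ → Fin 3} (hkc : ∀ v ∈ AO, coord (residue O u) (R (Start.frob v)) (kc v) ≠ 0)
    (hμ : ∀ v ∈ AO, μ v * coord (algebraMap O T u) (N (Start.frob v)) (kc v) =
      coord (algebraMap O T u) (N (τ v)) (kc v)) :
    ∀ z ∈ siteElems lam u N τ μ AS AO, π z = 0 := by
  intro z hz
  have hcoord1 : ∀ i, coord (residue O u) (1 : Matrix (Fin 2) (Fin 2) (ResidueField O)) i = 0 :=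
    fun i => by fin_cases i <;> simp [coord]
  rcases hz with (rfl | ⟨v, hv, i, rfl | rfl⟩) | ⟨v, hv, rfl | rfl⟩
  · rw [AlgHom.commutes]
    exact hlam
  · obtain ⟨a, ha⟩ := hscalar v hv
    rw [coord_map_point, hN.residue_eq, ha]
    fin_cases i <;> simp [coord]
  · rw [coord_map_point, hN.residue_eq, hτ v (Or.inl hv), hcoord1]
  · have hu' : 2 * residue O u = 1 := by
      rw [← map_ofNat (residue O), ← map_mul, hu, map_one]
    have hq := qform_map π.toRingHom (coord (algebraMap O T u) (N (Start.frob v)))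
    rw [AlgHom.toRingHom_eq_coe, RingHom.coe_coe] at hq
    rw [hq, funext fun i => coord_map_point π u (N (Start.frob v)) i, hN.residue_eq,
      qform_coord hu', (hsq v hv).2]
    linear_combination (residue O u * residue O u) * (hsq v hv).1 +
      (2 * residue O u + 1) * hu'
  · have h := congrArg π (hμ v hv)
    rw [map_mul, coord_map_point, coord_map_point, hN.residue_eq, hN.residue_eq,
      hτ v (Or.inr hv), hcoord1] at h
    exact (mul_eq_zero.mp h).resolve_right (hkc v hv)

/-- The tangent vectors killing `W`. -/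
private def tangentKilling (π : T →ₐ[O] ResidueField O) (W : Set T) :
    Submodule (ResidueField O) (T → ResidueField O) where
  carrier := {δ | δ ∈ pointDer π ∧ ∀ w ∈ W, δ w = 0}
  zero_mem' := ⟨zero_mem _, fun _ _ => rfl⟩
  add_mem' := fun ha hb => ⟨add_mem ha.1 hb.1, fun w hw => by simp [ha.2 w hw, hb.2 w hw]⟩
  smul_mem' := fun t δ hδ => ⟨Submodule.smul_mem _ t hδ.1, fun w hw => by simp [hδ.2 w hw]⟩

omit [IsLocalRing O] in
/-- A product relation of two matrices minus scalars under a ring homomorphism. -/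
private theorem mapRep_sub_mul_sub_eq_zero {K : Type} [CommRing K] (φ : T →+* K) {q : O →+* K}
    (hq : ∀ o, φ (algebraMap O T o) = q o) {σ t : AbsGal} {a l : O}
    (h : (N σ - algebraMap O T a • 1) * (N t - algebraMap O T l • 1) = 0) :
    (mapRep φ N σ - q a • 1) * (mapRep φ N t - q l • 1) = 0 := by
  have h' := congrArg φ.mapMatrix h
  rw [map_mul, map_zero, mapMatrix_sub_smul_one, mapMatrix_sub_smul_one, hq, hq] at h'
  exact h'

/-- The class of a tangent vector killing the site elements is split at the sites. -/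
private theorem tangentFun_split_site {p : ℕ} [Fact p.Prime] [CharP (ResidueField O) p]
    [Module.Finite O T] (hN : IsTangentRep π N R) {lam u : O} (hu : 2 * u = 1) {τ : ℕ → GalQ}
    {μ : ℕ → T} {AS AO : Finset ℕ} {δ : T → ResidueField O} (hδ : δ ∈ pointDer π)
    (hW : ∀ w ∈ siteElems lam u N τ μ AS AO, δ w = 0) {v : ℕ} (hv : v ∈ AS ∨ v ∈ AO)
    (hvP : v.Prime) (hvp : v ≠ p) (hv1 : (v : ResidueField O) = 1) (hunr : UnramifiedAt R v)
    (htr : (R (Start.frob v)).trace ^ 2 = 4)
    (hτ : τ v ∈ (Start.place v).inertiaSubgroupIn ℚ ∧ ∃ x : Qbar, x ^ p = (v : Qbar) ∧ τ v x ≠ x)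
    (hscalar : v ∈ AS → ∃ a : ResidueField O, R (Start.frob v) = a • 1)
    (hrel : N (Start.frob v) * N (τ v) = N (τ v) ^ v * N (Start.frob v))
    {k : Fin 3} (hk : v ∈ AO → coord (residue O u) (R (Start.frob v)) k ≠ 0 ∧
      μ v * coord (algebraMap O T u) (N (Start.frob v)) k =
        coord (algebraMap O T u) (N (τ v)) k) :
    ∃ a : Matrix (Fin 2) (Fin 2) (ResidueField O), a.trace = 0 ∧
      ∀ σ ∈ (Start.place v).decompositionSubgroup ℚ,
        tangentFun N R δ σ = a - R σ * a * R σ⁻¹ := by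
  have hA := Start.place_spec v hvP
  have hΦ := Start.frob_spec v hvP
  rcases hv with h | h
  · obtain ⟨b, hb⟩ := hscalar h
    refine ⟨0, by simp, fun σ hσ => ?_⟩
    rw [hN.split_scalar hδ Fact.out hvP hvp hA hΦ hτ.1 hτ.2 hunr hu hb
      (fun i => ⟨hW _ (Or.inl (Or.inr ⟨v, h, i, Or.inl rfl⟩)),
        hW _ (Or.inl (Or.inr ⟨v, h, i, Or.inr rfl⟩))⟩) σ hσ]
    simp
  · exact hN.split_other hδ Fact.out hvP hvp hA hΦ hτ.1 hτ.2 hunr hu hv1 htr hrel (hk h).1
      (hW _ (Or.inr ⟨v, h, Or.inr rfl⟩)) (hk h).2 (hW _ (Or.inr ⟨v, h, Or.inl rfl⟩))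

end Generic

/-- At scalar sites the invariants of the adjoint have rank three, at the others at least one. -/
private theorem card_le_sum_finrank_adInvariants {p : ℕ} [Fact p.Prime] {k : Type} [Field k]
    [NeZero (2 : k)] (R : ResidualRep p k) {AS AO : Finset ℕ} (hdisj : Disjoint AS AO)
    (hv : ∀ v, v ∈ AS ∨ v ∈ AO → v.Prime ∧ UnramifiedAt R.rep v)
    (hscalar : ∀ v ∈ AS, ∃ a : k, R.rep (Start.frob v) = a • 1)
    (hother : ∀ v ∈ AO, ¬ ∃ a : k, R.rep (Start.frob v) = a • 1) :
    3 * AS.card + AO.card ≤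
      ∑ v ∈ AS ∪ AO, Module.finrank k (adInvariants R.rep (Start.place v)) := by
  rw [Finset.sum_union hdisj]
  refine add_le_add ?_ ?_
  · rw [mul_comm, ← smul_eq_mul]
    refine Finset.card_nsmul_le_sum _ _ _ fun v h => ?_
    obtain ⟨hvP, hunr⟩ := hv v (Or.inl h)
    obtain ⟨b, hb⟩ := hscalar v h
    exact three_le_finrank_adInvariants hvP (Start.place_spec v hvP) (Start.frob_spec v hvP)
      hunr R.finite hb
  · rw [Finset.card_eq_sum_ones]
    refine Finset.sum_le_sum fun v h => ?_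
    obtain ⟨hvP, hunr⟩ := hv v (Or.inr h)
    exact one_le_finrank_adInvariants hvP (Start.place_spec v hvP) (Start.frob_spec v hvP)
      hunr R.finite (hother v h)

section Points

variable {p : ℕ} [Fact p.Prime] {O C : Type} [CommRing O] [IsDomain O] [IsDiscreteValuationRing O]
  [IsAdicComplete (maximalIdeal O) O] [CommRing C] [IsDomain C] [IsDiscreteValuationRing C]
  [IsAdicComplete (maximalIdeal C) C] [CharZero C] [Algebra O C] [Module.Finite O C]
  [IsLocalHom (algebraMap O C)] {hpC : (p : C) ∈ maximalIdeal C} {hpO : (p : O) ∈ maximalIdeal O}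
  {R : ResidualRep p (ResidueField O)} {X : Type} [Finite X] [Nonempty X] {S' : Finset ℕ}
  {c : X → ℕ → C} {f : X → GalQ → C}
  {F : Frame (trVal O f) ((algebraMap O (trAlg O f)).toMonoidHom.comp (cycChar hpO))}
  {π : trAlg O f →ₐ[O] ResidueField O}

omit [CharZero C] in
/-- The determinant of `R` is the reduction of the cyclotomic character. -/
private theorem det_eq_residue_cycChar (H : PointsData hpC S' c hpO R F π) (σ : AbsGal) :
    (R.rep σ).det = residue O (cycChar hpO σ) := by
  rw [← H.residue_eq σ]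
  show (π.toRingHom.mapMatrix (H.rep σ)).det = _
  rw [← RingHom.map_det, H.det_rep σ]
  exact π.commutes _

omit [CharZero C] in
/-- The relations of the characters at `p` descend to the residual representation. -/
private theorem residual_strict (H : PointsData hpC S' c hpO R F π) {a l : AbsGal → O}
    (hal : (∀ σ, l σ * l σ = 1 ∧ a σ * l σ = cycChar hpO σ) ∧
      ∀ σ ∈ (Start.place p).decompositionSubgroup ℚ,
        ∀ t ∈ (Start.place p).decompositionSubgroup ℚ,
          (H.rep σ - algebraMap O (trAlg O f) (a σ) • 1) *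
            (H.rep t - algebraMap O (trAlg O f) (l t) • 1) = 0) :
    (∀ σ ∈ (Start.place p).decompositionSubgroup ℚ, residue O (l σ) * residue O (l σ) = 1 ∧
        residue O (a σ) * residue O (l σ) = (R.rep σ).det) ∧
      ∀ σ ∈ (Start.place p).decompositionSubgroup ℚ,
        ∀ t ∈ (Start.place p).decompositionSubgroup ℚ,
          (R.rep σ - residue O (a σ) • 1) * (R.rep t - residue O (l t) • 1) = 0 := by
  refine ⟨fun σ _ => ⟨by rw [← map_mul, (hal.1 σ).1, map_one],
    by rw [← map_mul, (hal.1 σ).2, det_eq_residue_cycChar H]⟩, fun σ hσ t ht => ?_⟩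
  have h := mapRep_sub_mul_sub_eq_zero π.toRingHom (q := residue O) (fun o => π.commutes o)
    (hal.2 σ hσ t ht)
  rwa [show mapRep π.toRingHom H.rep = R.rep from MonoidHom.ext fun σ => H.residue_eq σ] at h

/-- Taking classes is injective on tangent vectors killing `W`. -/
private theorem finrank_tangentKilling [NeZero (2 : ResidueField O)]
    (H : PointsData hpC S' c hpO R F π) (W : Set (trAlg O f)) :
    Module.finrank (ResidueField O) (tangentKilling π W) = Module.finrank (ResidueField O)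
      (((tangentKilling π W).map (tangentFun H.rep R.rep)).map (adCoboundaries R.rep).mkQ) := by
  set V0 := tangentKilling π W
  let Θ := ((adCoboundaries R.rep).mkQ.comp (tangentFun H.rep R.rep)).domRestrict V0
  have hΘ : Function.Injective Θ := (injective_iff_map_eq_zero Θ).mpr fun δ h =>
    Subtype.ext (pointDer_eq_zero_of_coboundary H δ.2.1 ((Submodule.Quotient.mk_eq_zero _).mp h))
  rw [← LinearMap.finrank_range_of_inj hΘ, LinearMap.range_domRestrict, Submodule.map_comp]

/-- Signs at `B` and a pair of characters at `p`, common to all the points. -/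
private theorem exists_local_signs [CharP (ResidueField O) p] (hp2 : p ≠ 2)
    (H : PointsData hpC S' c hpO R F π) {loc B : Finset ℕ} (hloc : ∀ v ∈ loc, v.Prime)
    (hpB : p ∉ B) (hB : ∀ v ∈ B, ¬ UnramifiedAt R.rep v)
    (hst : ∀ x, ∀ v ∈ B, ∃ ε : ℤ, (ε = 1 ∨ ε = -1) ∧
      SteinbergAt (ptRep (isPseudoRep_family H.pts hpO) F x) v (ε : C))
    (hstrict : p ∈ loc → ∀ x, ∃ ε : ℤ, (ε = 1 ∨ ε = -1) ∧
      StrictAt (ptRep (isPseudoRep_family H.pts hpO) F x) p (ε : C)) :
    ∃ (εB : ℕ → ℤ) (a l : AbsGal → O),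
      (∀ v ∈ B ∩ loc, SteinbergAt H.rep v (εB v : trAlg O f)) ∧
      (p ∈ loc → (∀ σ, l σ * l σ = 1 ∧ a σ * l σ = cycChar hpO σ) ∧
        ∀ σ ∈ (Start.place p).decompositionSubgroup ℚ,
          ∀ t ∈ (Start.place p).decompositionSubgroup ℚ,
            (H.rep σ - algebraMap O (trAlg O f) (a σ) • 1) *
              (H.rep t - algebraMap O (trAlg O f) (l t) • 1) = 0) := by
  classical
  have hεB : ∀ v, ∃ ε : ℤ, v ∈ B ∩ loc → SteinbergAt H.rep v (ε : trAlg O f) := fun v => by
    by_cases hv : v ∈ B ∩ loc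
    · obtain ⟨hvB, hvl⟩ := Finset.mem_inter.mp hv
      obtain ⟨ε, hε⟩ := H.exists_steinberg hp2 (hloc v hvl) (fun e => hpB (e ▸ hvB)) (hB v hvB)
        fun x => hst x v hvB
      exact ⟨ε, fun _ => hε⟩
    · exact ⟨0, fun h => absurd h hv⟩
  choose εB hεB using hεB
  by_cases hp : p ∈ loc
  · obtain ⟨a, l, h⟩ := H.exists_strict hp2 (hstrict hp)
    exact ⟨εB, a, l, hεB, fun _ => h⟩
  · exact ⟨εB, fun _ => 1, fun _ => 1, hεB, fun h => absurd h hp⟩

end Points

/-- **Generators at the sites.** -/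
theorem exists_site_generators {p : ℕ} [Fact p.Prime] (hp2 : p ≠ 2)
    {O C : Type} [CommRing O] [IsDomain O] [IsDiscreteValuationRing O]
    [IsAdicComplete (maximalIdeal O) O] [Finite (ResidueField O)] [CharZero O]
    [CharP (ResidueField O) p]
    [CommRing C] [IsDomain C] [IsDiscreteValuationRing C] [IsAdicComplete (maximalIdeal C) C]
    [Finite (ResidueField C)] [CharZero C] [Algebra O C] [Module.Finite O C]
    [IsLocalHom (algebraMap O C)]
    {hpC : (p : C) ∈ maximalIdeal C} (hpO : (p : O) ∈ maximalIdeal O)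
    (R : ResidualRep p (ResidueField O))
    {X : Type} [Finite X] [Nonempty X] {S' : Finset ℕ} {c : X → ℕ → C} {f : X → GalQ → C}
    (hf : ∀ x, IsPointTrace hpC S' (c x) (f x))
    (hres : ∀ x g, residue C (f x g) = ResidueField.map (algebraMap O C) (R.rep g).trace)
    (F : Frame (trVal O f) ((algebraMap O (trAlg O f)).toMonoidHom.comp (cycChar hpO)))
    (hγ : F.γ = complexConjugation) (hFr : F.r = R.r) (hαβ : F.α = 1 ∧ F.β = -1)
    [IsLocalRing (trAlg O f)]
    (lam : O) (hlam : maximalIdeal O = Ideal.span {lam})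
    (loc AS AO B : Finset ℕ) (hloc : ∀ v ∈ loc, v.Prime) (hAS : AS ⊆ loc) (hAO : AO ⊆ loc)
    (hdisj : Disjoint AS AO) (hpAS : p ∉ AS) (hpAO : p ∉ AO) (hpB : p ∉ B)
    (hcover : ∀ v ∈ loc, v ∈ AS ∨ v ∈ AO ∨ v ∈ B ∨ v = p)
    (hsite : ∀ v, v ∈ AS ∨ v ∈ AO → v % p = 1 ∧ UnramifiedAt R.rep v ∧
      (R.rep (Start.frob v)).trace ^ 2 = 4)
    (hscalar : ∀ v ∈ AS, ∃ a : ResidueField O, R.rep (Start.frob v) = a • 1)
    (hB : ∀ v ∈ B, ¬ UnramifiedAt R.rep v)
    {r : ℕ} (qv : Fin r → ℕ)
    (hbound : ∀ V : Submodule (ResidueField O) (AbsGal → Matrix (Fin 2) (Fin 2) (ResidueField O)),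
      (∀ e ∈ V, IsAdCocycle R.rep e ∧
        (∀ q, q.Prime → q ∉ loc → q ≠ p → (∀ i, qv i ≠ q) →
          ∀ Q : ValuationSubring Qbar, Q.LiesOverPrime q → ∀ σ ∈ Q.inertiaSubgroupIn ℚ, e σ = 0) ∧
        (∀ v ∈ loc, ∃ a, a.trace = 0 ∧ ∀ σ ∈ (Start.place v).decompositionSubgroup ℚ,
          e σ = a - R.rep σ * a * R.rep σ⁻¹) ∧
        (p ∉ loc → ∀ M : MatRep (TrivSqZeroExt (ResidueField O) (ResidueField O)),
          IsDualLift R.rep e M → FlatAt M p)) →
      Module.finrank (ResidueField O) (V.map (adCoboundaries R.rep).mkQ) +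
        ∑ v ∈ loc, Module.finrank (ResidueField O) (adInvariants R.rep (Start.place v)) +
        (if p ∈ loc then 1 else 0) ≤ r)
    -- local properties of the points
    (hunr : ∀ x q, q.Prime → q ∉ loc → q ≠ p → (∀ i, qv i ≠ q) →
      UnramifiedAt (ptRep (isPseudoRep_family hf hpO) F x) q)
    (hst : ∀ x, ∀ v ∈ B, ∃ ε : ℤ, (ε = 1 ∨ ε = -1) ∧
      SteinbergAt (ptRep (isPseudoRep_family hf hpO) F x) v (ε : C))
    (hstrict : p ∈ loc → ∀ x, ∃ ε : ℤ, (ε = 1 ∨ ε = -1) ∧
      StrictAt (ptRep (isPseudoRep_family hf hpO) F x) p (ε : C))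
    (hflat : p ∉ loc → ∀ x, FlatAt (ptRep (isPseudoRep_family hf hpO) F x) p)
    -- the coordinates at the sites
    (τ : ℕ → GalQ) (hτ : ∀ v, v ∈ AS ∨ v ∈ AO → τ v ∈ (Start.place v).inertiaSubgroupIn ℚ ∧
      ∃ x : Qbar, x ^ p = (v : Qbar) ∧ τ v x ≠ x)
    (u : O) (hu : 2 * u = 1) (kc : ℕ → Fin 3)
    (hkc : ∀ v ∈ AO, coord (residue O u) (R.rep (Start.frob v)) (kc v) ≠ 0)
    (μ : ℕ → trAlg O f)
    (hμ : ∀ v ∈ AO, μ v * coord (algebraMap O (trAlg O f) u)
        (F.rep (isPseudoRep_trVal (isPseudoRep_family hf hpO)) (Start.frob v)) (kc v) =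
      coord (algebraMap O (trAlg O f) u)
        (F.rep (isPseudoRep_trVal (isPseudoRep_family hf hpO)) (τ v)) (kc v)) :
    ∃ (g : ℕ) (x : Fin g → trAlg O f), 3 * AS.card + AO.card + g ≤ r ∧
      maximalIdeal (trAlg O f) = Ideal.span ({algebraMap O (trAlg O f) lam} ∪
        {z | ∃ v ∈ AS, ∃ i, z = coord (algebraMap O (trAlg O f) u)
              (F.rep (isPseudoRep_trVal (isPseudoRep_family hf hpO)) (Start.frob v)) i ∨
            z = coord (algebraMap O (trAlg O f) u)
              (F.rep (isPseudoRep_trVal (isPseudoRep_family hf hpO)) (τ v)) i} ∪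
        {z | ∃ v ∈ AO, z = qform (coord (algebraMap O (trAlg O f) u)
              (F.rep (isPseudoRep_trVal (isPseudoRep_family hf hpO)) (Start.frob v))) ∨ z = μ v} ∪
        Set.range x) := by
  classical
  have : NeZero (2 : ResidueField O) := neZero_two_of_half hu
  obtain ⟨π, hπ⟩ := exists_residual_point (exists_congr_of_residual R hres)
  have H : PointsData hpC S' c hpO R F π := ⟨hf, hres, hγ, hFr, hαβ, hπ⟩
  have hN : IsTangentRep π H.rep R.rep := H.isTangentRep lam hlam
  have : Module.Finite O (trAlg O f) := finite_trAlg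
  have : IsNoetherianRing (trAlg O f) := IsNoetherianRing.of_finite O _
  -- facts at the sites
  have hvne : ∀ v, v ∈ AS ∨ v ∈ AO → v.Prime ∧ v ≠ p := fun v hv => by
    rcases hv with h | h
    · exact ⟨hloc v (hAS h), fun e => hpAS (e ▸ h)⟩
    · exact ⟨hloc v (hAO h), fun e => hpAO (e ▸ h)⟩
  have hv1 : ∀ v, v ∈ AS ∨ v ∈ AO → ((v : ℕ) : ResidueField O) = 1 := fun v hv => by
    rw [← Nat.mod_add_div v p, (hsite v hv).1, Nat.cast_add, Nat.cast_mul,
      CharP.cast_eq_zero (ResidueField O) p, zero_mul, add_zero, Nat.cast_one]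
  -- the elements to kill
  set W := siteElems lam u H.rep τ μ AS AO
  have hWm : W ⊆ maximalIdeal (trAlg O f) := fun z hz => (eq_zero_iff_mem π z).mp <|
    siteElems_residual hN
      ((residue_eq_zero_iff lam).mpr (hlam ▸ Ideal.mem_span_singleton_self lam)) hu
      (fun v hv => (hsite v hv).2.1 _ (Start.place_spec v (hvne v hv).1) _ (hτ v hv).1) hscalar
      (fun v hv => ⟨(hsite v (Or.inr hv)).2.2, by
        obtain ⟨hvP, hvp⟩ := hvne v (Or.inr hv)
        rw [det_eq_residue_cycChar H, cycChar_frobenius hpO hvP hvp (Start.place_spec v hvP)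
          (Start.frob_spec v hvP), map_natCast, hv1 v (Or.inr hv)]⟩) hkc hμ z hz
  have hWO : ∀ o ∈ maximalIdeal O, algebraMap O (trAlg O f) o ∈ Ideal.span W := fun o ho => by
    obtain ⟨b, rfl⟩ := Ideal.mem_span_singleton.mp (hlam ▸ ho)
    rw [map_mul]
    exact Ideal.mul_mem_right _ _ (Ideal.subset_span (Or.inl (Or.inl rfl)))
  -- the tangent vectors and their classes
  have : Module.Finite (ResidueField O) (pointDer π) := finite_pointDer π
  have : Module.Finite (ResidueField O) (tangentKilling π W) :=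
    Submodule.finiteDimensional_of_le (fun δ hδ => hδ.1)
  obtain ⟨εB, a, l, hεB, hal⟩ := exists_local_signs hp2 H hloc hpB hB hst hstrict
  have hπN : mapRep π.toRingHom H.rep = R.rep := MonoidHom.ext fun σ => hN.residue_eq σ
  have hbd := finrank_selmer_add_sum_le hp2 R.rep R.finite R.det loc (AS ∪ AO) (B ∩ loc) hloc
    (Finset.union_subset hAS hAO) (by simp [hpAS, hpAO]) (fun h => hpB (Finset.mem_inter.mp h).1)
    (fun v hv => by
      rcases hcover v hv with h | h | h | h
      · exact Or.inl (Finset.mem_union_left _ h)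
      · exact Or.inl (Finset.mem_union_right _ h)
      · exact Or.inr (Or.inl (Finset.mem_inter.mpr ⟨h, hv⟩))
      · exact Or.inr (Or.inr h))
    Start.place (fun v hv => Start.place_spec v (hloc v hv)) (fun v => (εB v : (ResidueField O)))
    (fun v hv => hB v (Finset.mem_inter.mp hv).1)
    (fun v hv => by
      have h := steinbergAt_mapRep π.toRingHom (hεB v hv)
      rwa [hπN] at h)
    (fun σ => residue O (a σ)) (fun σ => residue O (l σ)) (fun hp => residual_strict H (hal hp))
    qv hbound ((tangentKilling π W).map (tangentFun H.rep R.rep)) ?_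
  · have hsum := card_le_sum_finrank_adInvariants R hdisj
      (fun v hv => ⟨(hvne v hv).1, (hsite v hv).2.1⟩) hscalar fun v hv ⟨b, hb⟩ => hkc v hv (by
        rw [hb]
        generalize kc v = i
        fin_cases i <;> simp [coord])
    obtain ⟨x, hx⟩ := exists_generators_pointDer π W hWm hWO (tangentKilling π W)
      (fun δ hδ h => ⟨hδ, h⟩)
      (r - (3 * AS.card + AO.card)) (by rw [finrank_tangentKilling H W]; omega)
    exact ⟨_, x, by omega, hx⟩
  -- the local conditions
  rintro _ ⟨δ, ⟨hδ, hδW⟩, rfl⟩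
  refine ⟨hN.isAdCocycle hδ, fun q hq hql hqp hqi Q hQ σ hσ => ?_, fun v hv => ?_, fun M hM => ?_⟩
  · rw [tangentFun_apply,
      H.unramified (fun x => hunr x q hq hql hqp hqi) Q hQ σ hσ, pointDer_map_one hδ, zero_mul]
  · obtain ⟨hvP, hvp⟩ := hvne v (Finset.mem_union.mp hv)
    obtain ⟨-, hu1, hu2⟩ := hsite v (Finset.mem_union.mp hv)
    obtain ⟨hτI, y, hy, hτy⟩ := hτ v (Finset.mem_union.mp hv)
    exact tangentFun_split_site hN hu hδ hδW (Finset.mem_union.mp hv) hvP hvp
      (hv1 v (Finset.mem_union.mp hv)) hu1 hu2 ⟨hτI, y, hy, hτy⟩ (hscalar v)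
      (H.tame_relation hvP hvp hu1 (Start.place_spec v hvP) hy hτI hτy (Start.frob_spec v hvP))
      fun h => ⟨hkc v h, hμ v h⟩
  · obtain rfl := hN.eq_mapRep_of_dualLift hδ hM
    refine ⟨fun v hv => ?_, fun hp σ hσ t ht => ?_, fun hp => ?_⟩
    · have h := steinbergAt_mapRep (tangentHom hδ) (hεB v hv)
      rwa [← TrivSqZeroExt.inl_intCast] at h
    · exact mapRep_sub_mul_sub_eq_zero (tangentHom hδ)
        (q := (TrivSqZeroExt.inlHom (ResidueField O) (ResidueField O)).comp (residue O))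
        (fun o => tangentHom_algebraMap hδ o) ((hal hp).2 σ hσ t ht)
    · exact H.flat lam hlam hδ (hflat hp)

end FLTAgent.LevelLowering

end
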