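import Fermat.Agent.LevelLowering.Selmer.Basic
import Fermat.Agent.LevelLowering.Level.Generation
import Fermat.Agent.LevelLowering.SiteIdentities
import Fermat.Agent.ModularityLifting.Engine.Derivation
import Fermat.Agent.ModularityLifting.Engine.LocalVanish

/-!
# The cocycle of a tangent vector at a residual point

A tangent vector `δ` of an algebra `T` at a point with values in the residue field of the
coefficients turns a representation over `T` into a first order deformation of its reduction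
(`tangentHom`, `IsTangentRep`).  At a site where the coordinates of Frobenius and of a tame
generator are killed the class is split.  Used by `LevelLowering.Tangent.Generators`.
-/

set_option autoImplicit false

noncomputable section

open IsLocalRing Matrix
open scoped TrivSqZeroExt

namespace FLTAgent.LevelLowering

open FLTAgent.DefRing FLTAgent.ModularityLifting FLTAgent.ModularityLifting.Engine

local notation "Qbar" => AlgebraicClosure ℚ

variable {O T : Type} [CommRing O] [IsLocalRing O] [CommRing T] [Algebra O T]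
  {π : T →ₐ[O] ResidueField O}

/-- Generators of the maximal ideal from a bound on the tangent vectors killing a set. -/
theorem exists_generators_pointDer [IsLocalRing T] [IsNoetherianRing T]
    (π : T →ₐ[O] ResidueField O) (W : Set T) (hW : W ⊆ maximalIdeal T)
    (hO : ∀ o ∈ maximalIdeal O, algebraMap O T o ∈ Ideal.span W)
    (V : Submodule (ResidueField O) (T → ResidueField O)) [Module.Finite (ResidueField O) V]
    (hV : ∀ δ ∈ pointDer π, (∀ w ∈ W, δ w = 0) → δ ∈ V) (g : ℕ)
    (hg : Module.finrank (ResidueField O) V ≤ g) :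
    ∃ x : Fin g → T, maximalIdeal T = Ideal.span (W ∪ Set.range x) := by
  classical
  let ev : T → Module.Dual (ResidueField O) V := fun t =>
    { toFun := fun D => D.1 t, map_add' := fun _ _ => rfl, map_smul' := fun _ _ => rfl }
  obtain ⟨φ, hφ, hsep⟩ := exists_separating (k := ResidueField O) (V := V)
    (ev '' (maximalIdeal T : Set T)) g hg
  have hy : ∀ i, ∃ y ∈ maximalIdeal T, ∀ D : V, φ i D = D.1 y ∨ φ i = 0 := fun i => by
    rcases hφ i with ⟨y, hy, e⟩ | e
    · exact ⟨y, hy, fun D => Or.inl (by rw [← e]; rfl)⟩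
    · exact ⟨0, zero_mem _, fun D => Or.inr e⟩
  choose x hx hex using hy
  have hres : ∀ t : T, ∃ o : O, t - algebraMap O T o ∈ maximalIdeal T := fun t => by
    obtain ⟨o, ho⟩ := residue_surjective (π t)
    refine ⟨o, (eq_zero_iff_mem π _).mp ?_⟩
    rw [map_sub, AlgHom.commutes, sub_eq_zero]
    exact ho.symm
  let j : ResidueField T →+* ResidueField O :=
    Ideal.Quotient.lift (maximalIdeal T) π.toRingHom fun a ha => (eq_zero_iff_mem π a).mpr ha
  have hj : ∀ a : T, j (residue T a) = π a := fun a => rfl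
  refine ⟨x, maximalIdeal_eq_span_of_derivation hres (maximalIdeal T).fg_of_isNoetherianRing _
    (Set.union_subset hW (Set.range_subset_iff.mpr hx))
    (fun o ho => Ideal.span_mono Set.subset_union_left (hO o ho)) fun D hD => ?_⟩
  set δ : T → ResidueField O := fun t => j (D t) with hδdef
  have hδ : δ ∈ pointDer π := by
    refine ⟨fun a b => by simp [δ], fun a b => ?_, fun o => by simp [δ]⟩
    show j (D (a * b)) = π a * j (D b) + π b * j (D a)
    rw [Derivation.leibniz, map_add, Algebra.smul_def, Algebra.smul_def, map_mul, map_mul,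
      ResidueField.algebraMap_eq, hj, hj]
  have hδW : ∀ w ∈ W, δ w = 0 := fun w hw => by simp [δ, hD w (Or.inl hw)]
  refine Derivation.ext fun t => ?_
  obtain ⟨o, ho⟩ := hres t
  have h1 : δ (t - algebraMap O T o) = 0 := by
    refine hsep ⟨δ, hV δ hδ hδW⟩ (fun i => ?_) _ ⟨_, ho, rfl⟩
    rcases hex i ⟨δ, hV δ hδ hδW⟩ with h | h
    · rw [h]
      simp [δ, hD (x i) (Or.inr ⟨i, rfl⟩)]
    · rw [h, LinearMap.zero_apply]
  rw [pointDer_sub hδ, hδ.2.2, sub_zero] at h1
  exact j.injective (h1.trans (map_zero j).symm)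

/-- The tangent vectors of a finite algebra form a finite dimensional space. -/
theorem finite_pointDer [Module.Finite O T] (π : T →ₐ[O] ResidueField O) :
    Module.Finite (ResidueField O) (pointDer π) := by
  obtain ⟨l, c, hc⟩ := Module.Finite.exists_fin (R := O) (M := T)
  let F : pointDer π →ₗ[ResidueField O] (Fin l → ResidueField O) :=
    { toFun := fun δ i => δ.1 (c i), map_add' := fun _ _ => rfl, map_smul' := fun _ _ => rfl }
  refine Module.Finite.of_injective F ((injective_iff_map_eq_zero F).mpr fun δ h => ?_)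
  refine Subtype.ext (funext fun t => ?_)
  obtain ⟨a, rfl⟩ := (Submodule.mem_span_range_iff_exists_fun O).mp
    (hc ▸ Submodule.mem_top : t ∈ Submodule.span O (Set.range c))
  rw [pointDer_sum δ.2]
  refine Finset.sum_eq_zero fun i _ => ?_
  rw [Algebra.smul_def, pointDer_algebraMap_mul δ.2, show δ.1 (c i) = 0 from congrFun h i, mul_zero]

/-- The first order homomorphism of a tangent vector. -/
def tangentHom {δ : T → ResidueField O} (hδ : δ ∈ pointDer π) :
    T →+* TrivSqZeroExt (ResidueField O) (ResidueField O) where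
  toFun t := TrivSqZeroExt.inl (π t) + TrivSqZeroExt.inr (δ t)
  map_one' := by simp [pointDer_one hδ]
  map_zero' := by simp [pointDer_zero hδ]
  map_add' a b := by
    simp only [map_add, hδ.1, TrivSqZeroExt.inl_add, TrivSqZeroExt.inr_add]
    abel
  map_mul' a b := by
    ext <;> simp [hδ.2.1, MulOpposite.smul_eq_mul_unop]
    ring

theorem tangentHom_apply {δ : T → ResidueField O} (hδ : δ ∈ pointDer π) (t : T) :
    tangentHom hδ t = TrivSqZeroExt.inl (π t) + TrivSqZeroExt.inr (δ t) := rfl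

theorem tangentHom_algebraMap {δ : T → ResidueField O} (hδ : δ ∈ pointDer π) (o : O) :
    tangentHom hδ (algebraMap O T o) = TrivSqZeroExt.inl (residue O o) := by
  rw [tangentHom_apply, hδ.2.2, AlgHom.commutes, TrivSqZeroExt.inr_zero, add_zero]
  rfl

/-- Coordinates commute with tangent vectors. -/
theorem pointDer_coord {δ : T → ResidueField O} (hδ : δ ∈ pointDer π) (u : O)
    (A : Matrix (Fin 2) (Fin 2) T) (i : Fin 3) :
    δ (coord (algebraMap O T u) A i) = coord (residue O u) (A.map δ) i := by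
  fin_cases i <;> simp [coord, pointDer_algebraMap_mul hδ, pointDer_sub hδ]

theorem coord_map_point (π : T →ₐ[O] ResidueField O) (u : O) (A : Matrix (Fin 2) (Fin 2) T)
    (i : Fin 3) : π (coord (algebraMap O T u) A i) = coord (residue O u) (A.map π) i := by
  have h := coord_map π.toRingHom (algebraMap O T u) A i
  rw [AlgHom.toRingHom_eq_coe, RingHom.coe_coe, AlgHom.commutes] at h
  exact h

variable (N : MatRep T) (R : MatRep (ResidueField O))

/-- The cochain of a tangent vector. -/
def tangentFun : (T → ResidueField O) →ₗ[ResidueField O]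
    (AbsGal → Matrix (Fin 2) (Fin 2) (ResidueField O)) where
  toFun δ σ := (N σ).map δ * R σ⁻¹
  map_add' a b := funext fun σ => by
    show (N σ).map (a + b) * _ = _
    rw [Pi.add_apply, ← add_mul]
    rfl
  map_smul' t a := funext fun σ => by
    show (N σ).map (t • a) * _ = _
    rw [RingHom.id_apply, Pi.smul_apply, ← Matrix.smul_mul]
    rfl

omit [Algebra O T] in
theorem tangentFun_apply (δ : T → ResidueField O) (σ : AbsGal) :
    tangentFun N R δ σ = (N σ).map δ * R σ⁻¹ := rfl

omit [Algebra O T] in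
theorem tangentFun_mul_rep (δ : T → ResidueField O) (σ : AbsGal) :
    tangentFun N R δ σ * R σ = (N σ).map δ := by
  rw [tangentFun_apply, mul_assoc, rep_inv_mul, mul_one]

variable {N R}

/-- The residual representation and the determinant of a representation at a point. -/
structure IsTangentRep (π : T →ₐ[O] ResidueField O) (N : MatRep T)
    (R : MatRep (ResidueField O)) : Prop where
  residue_eq : ∀ σ, (N σ).map π = R σ
  det_mem : ∀ σ, ∃ o : O, (N σ).det = algebraMap O T o
  level : ∃ L : IntermediateField ℚ Qbar, FiniteDimensional ℚ L ∧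
    ∀ σ : AbsGal, (∀ x ∈ L, σ x = x) →
      R σ = 1 ∧ ∀ δ ∈ pointDer π, (N σ).map δ = 0

variable {δ : T → ResidueField O}

theorem IsTangentRep.cocycle_mul (hN : IsTangentRep π N R) (hδ : δ ∈ pointDer π) (σ τ : AbsGal) :
    tangentFun N R δ (σ * τ) = tangentFun N R δ σ + R σ * tangentFun N R δ τ * R σ⁻¹ := by
  have h := pointDer_map_mul hδ (N σ) (N τ)
  rw [← map_mul, hN.residue_eq, hN.residue_eq] at h
  simp only [tangentFun_apply]
  rw [h, _root_.mul_inv_rev, map_mul, add_mul, add_comm]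
  congr 1
  · rw [mul_assoc, ← mul_assoc (R τ), rep_mul_inv, one_mul]
  · simp only [mul_assoc]

theorem IsTangentRep.adjugate_mul_trace (hN : IsTangentRep π N R) (hδ : δ ∈ pointDer π)
    (σ : AbsGal) : ((R σ).adjugate * (N σ).map δ).trace = 0 := by
  obtain ⟨o, ho⟩ := hN.det_mem σ
  have h := pointDer_det hδ (N σ)
  rw [ho, hδ.2.2, hN.residue_eq] at h
  exact h.symm

theorem IsTangentRep.trace_cocycle (hN : IsTangentRep π N R) (hδ : δ ∈ pointDer π) (σ : AbsGal) :
    (tangentFun N R δ σ).trace = 0 := by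
  have h := hN.adjugate_mul_trace hδ σ
  have e : (R σ).adjugate = (R σ).det • R σ⁻¹ := by
    conv_lhs => rw [← mul_one (R σ).adjugate, ← rep_mul_inv R σ, ← mul_assoc, Matrix.adjugate_mul,
      smul_mul_assoc, one_mul]
  rw [e, smul_mul_assoc, Matrix.trace_smul, smul_eq_mul, Matrix.trace_mul_comm] at h
  refine (mul_eq_zero.mp h).resolve_left fun h0 => ?_
  have := congrArg Matrix.det (rep_mul_inv R σ)
  rw [Matrix.det_mul, h0, zero_mul, Matrix.det_one] at this
  exact zero_ne_one this

theorem IsTangentRep.isAdCocycle (hN : IsTangentRep π N R) (hδ : δ ∈ pointDer π) :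
    IsAdCocycle R (tangentFun N R δ) := by
  obtain ⟨L, hL, h⟩ := hN.level
  exact ⟨hN.cocycle_mul hδ, hN.trace_cocycle hδ, L, hL, fun σ hσ => by
    rw [tangentFun_apply, (h σ hσ).2 δ hδ, zero_mul]⟩

theorem IsTangentRep.eq_mapRep_of_dualLift (hN : IsTangentRep π N R) (hδ : δ ∈ pointDer π)
    {M : MatRep (TrivSqZeroExt (ResidueField O) (ResidueField O))}
    (hM : IsDualLift R (tangentFun N R δ) M) : M = mapRep (tangentHom hδ) N := by
  refine MonoidHom.ext fun σ => ?_
  ext i j : 1
  rw [hM σ i j, tangentFun_mul_rep, mapRep_apply, tangentHom_apply, ← hN.residue_eq,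
    Matrix.map_apply, Matrix.map_apply]

/-- A class vanishing at Frobenius and at a tame generator is zero on the decomposition group. -/
theorem eq_zero_of_site {k : Type} [Field k] {ρ : MatRep k} {p v : ℕ} [CharP k p] (hp : p.Prime)
    (hv : v.Prime) (hvp : v ≠ p) {A : ValuationSubring Qbar} (hA : A.LiesOverPrime v)
    {Φ τ : AbsGal} (hΦ : A.IsFrobeniusAt Φ v) (hτ : τ ∈ A.inertiaSubgroupIn ℚ)
    (hτx : ∃ x : Qbar, x ^ p = (v : Qbar) ∧ τ x ≠ x) (hunr : UnramifiedAt ρ v)
    (hρ : ∃ L : IntermediateField ℚ Qbar, FiniteDimensional ℚ L ∧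
      ∀ σ : AbsGal, (∀ x ∈ L, σ x = x) → ρ σ = 1)
    {c : AbsGal → Matrix (Fin 2) (Fin 2) k} (hc : IsAdCocycle ρ c) (h1 : c τ = 0) (h2 : c Φ = 0) :
    ∀ σ ∈ A.decompositionSubgroup ℚ, c σ = 0 := by
  obtain ⟨L, hL, hL1⟩ := hρ
  obtain ⟨hc1, -, Lc, hLc, hLc0⟩ := hc
  have := hL
  have := hLc
  refine cocycle_eq_zero_of_tame ρ c hp hv hvp hA hΦ hτ hτx hc1 (L ⊔ Lc)
    (fun σ h => ⟨hL1 σ fun y hy => h y (le_sup_left (b := Lc) hy),
      hLc0 σ fun y hy => h y (le_sup_right (a := L) hy)⟩) (fun σ hσ => ?_) h1 h2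
  rw [hunr A hA σ hσ, sub_self, zero_pow two_ne_zero]

/-- The image of `a ↦ a M - M a`. -/
theorem exists_bracket {k : Type} [Field k] {M Y : Matrix (Fin 2) (Fin 2) k}
    (hM : M 0 0 ≠ M 1 1 ∨ M 0 1 ≠ 0 ∨ M 1 0 ≠ 0) (hY : Y.trace = 0)
    (h : (Y 0 0) * (M 0 0 - M 1 1) + M 0 1 * Y 1 0 + M 1 0 * Y 0 1 = 0) :
    ∃ a : Matrix (Fin 2) (Fin 2) k, a * M - M * a = Y := by
  rw [Matrix.trace_fin_two] at hY
  have hY11 : Y 1 1 = -Y 0 0 := eq_neg_of_add_eq_zero_right hY
  by_cases hb : M 0 1 = 0
  · by_cases hc : M 1 0 = 0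
    · have ha : M 0 0 - M 1 1 ≠ 0 := sub_ne_zero.mpr ((hM.resolve_right (by simp [hb, hc])))
      have hy : Y 0 0 = 0 := by
        refine (mul_eq_zero.mp ?_).resolve_right ha
        linear_combination h - Y 1 0 * hb - Y 0 1 * hc
      refine ⟨!![0, -Y 0 1 / (M 0 0 - M 1 1); Y 1 0 / (M 0 0 - M 1 1), 0], ?_⟩
      ext i j
      fin_cases i <;> fin_cases j <;>
        rw [Matrix.sub_apply, Matrix.mul_apply, Matrix.mul_apply, Fin.sum_univ_two,
          Fin.sum_univ_two] <;>
        simp [hb, hc, hy, hY11] <;> field_simp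
      ring
    · refine ⟨!![-Y 1 0 / M 1 0, Y 0 0 / M 1 0; 0, 0], ?_⟩
      ext i j
      fin_cases i <;> fin_cases j <;>
        rw [Matrix.sub_apply, Matrix.mul_apply, Matrix.mul_apply, Fin.sum_univ_two,
          Fin.sum_univ_two] <;>
        simp [hb, hY11] <;> field_simp <;>
        first | ring1 | linear_combination h - Y 1 0 * hb | linear_combination -h + Y 1 0 * hb
  · refine ⟨!![Y 0 1 / M 0 1, 0; -Y 0 0 / M 0 1, 0], ?_⟩
    ext i j
    fin_cases i <;> fin_cases j <;>
      rw [Matrix.sub_apply, Matrix.mul_apply, Matrix.mul_apply, Fin.sum_univ_two,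
        Fin.sum_univ_two] <;>
      simp [hY11] <;> field_simp <;>
      first | ring1 | linear_combination h | linear_combination -h

section Site

variable {p : ℕ} [CharP (ResidueField O) p] {v : ℕ} {A : ValuationSubring Qbar}
  {Φ τ : AbsGal} {u : O}

theorem eq_zero_of_coord {k : Type} [Field k] [NeZero (2 : k)] {u : k} (hu : u ≠ 0)
    {E : Matrix (Fin 2) (Fin 2) k} (htr : E.trace = 0) (h : ∀ i, coord u E i = 0) : E = 0 := by
  have h0 := h 0
  have h1 := h 1
  have h2 := h 2
  simp only [coord, Matrix.cons_val_zero, Matrix.cons_val_one, Matrix.cons_val] at h0 h1 h2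
  have h11 : E 0 0 = E 1 1 := sub_eq_zero.mp ((mul_eq_zero.mp h0).resolve_left hu)
  rw [Matrix.trace_fin_two, h11, ← two_mul] at htr
  have h11' : E 1 1 = 0 := (mul_eq_zero.mp htr).resolve_left (NeZero.ne 2)
  ext i j
  fin_cases i <;> fin_cases j <;> simp [h1, h2, h11, h11']

theorem residue_u_ne_zero (hu : 2 * u = 1) : residue O u ≠ 0 := fun h0 => by
  have := congrArg (residue O) hu
  rw [map_mul, h0, mul_zero, map_one] at this
  exact zero_ne_one this

theorem neZero_two_of_half (hu : 2 * u = 1) : NeZero (2 : ResidueField O) := ⟨fun h0 => by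
  have := congrArg (residue O) hu
  rw [map_mul, map_ofNat, h0, zero_mul, map_one] at this
  exact zero_ne_one this⟩

/-- At a scalar site killing all coordinates splits the class. -/
theorem IsTangentRep.split_scalar (hN : IsTangentRep π N R) (hδ : δ ∈ pointDer π) (hp : p.Prime)
    (hv : v.Prime) (hvp : v ≠ p) (hA : A.LiesOverPrime v) (hΦ : A.IsFrobeniusAt Φ v)
    (hτ : τ ∈ A.inertiaSubgroupIn ℚ) (hτx : ∃ x : Qbar, x ^ p = (v : Qbar) ∧ τ x ≠ x)
    (hunr : UnramifiedAt R v) (hu : 2 * u = 1) {a : ResidueField O} (ha : R Φ = a • 1)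
    (h : ∀ i, δ (coord (algebraMap O T u) (N Φ) i) = 0 ∧
      δ (coord (algebraMap O T u) (N τ) i) = 0) :
    ∀ σ ∈ A.decompositionSubgroup ℚ, tangentFun N R δ σ = 0 := by
  have := neZero_two_of_half hu
  have hc := hN.isAdCocycle hδ
  obtain ⟨L, hL, hL1⟩ := hN.level
  have key : ∀ g : AbsGal, ∀ b : ResidueField O, R g = b • 1 →
      (∀ i, δ (coord (algebraMap O T u) (N g) i) = 0) → tangentFun N R δ g = 0 := by
    intro g b hb hg
    have hE : (N g).map δ = 0 := by
      refine eq_zero_of_coord (residue_u_ne_zero hu) ?_ fun i => by rw [← pointDer_coord hδ, hg]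
      rw [← tangentFun_mul_rep N R δ g, hb, mul_smul_comm, mul_one, Matrix.trace_smul,
        hN.trace_cocycle hδ, smul_zero]
    rw [tangentFun_apply, hE, zero_mul]
  exact eq_zero_of_site hp hv hvp hA hΦ hτ hτx hunr ⟨L, hL, fun σ hσ => (hL1 σ hσ).1⟩ hc
    (key τ 1 (by rw [hunr A hA τ hτ, one_smul]) fun i => (h i).2) (key Φ a ha fun i => (h i).1)

/-- At any other site killing the proportionality constant and the quadratic form splits the
class. -/
theorem IsTangentRep.split_other (hN : IsTangentRep π N R) (hδ : δ ∈ pointDer π) (hp : p.Prime)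
    (hv : v.Prime) (hvp : v ≠ p) (hA : A.LiesOverPrime v) (hΦ : A.IsFrobeniusAt Φ v)
    (hτ : τ ∈ A.inertiaSubgroupIn ℚ) (hτx : ∃ x : Qbar, x ^ p = (v : Qbar) ∧ τ x ≠ x)
    (hunr : UnramifiedAt R v) (hu : 2 * u = 1) (hv1 : (v : ResidueField O) = 1)
    (htr : (R Φ).trace ^ 2 = 4) (hrel : N Φ * N τ = N τ ^ v * N Φ)
    {k : Fin 3} (hk : coord (residue O u) (R Φ) k ≠ 0) {μ : T} (hμ0 : δ μ = 0)
    (hμ : μ * coord (algebraMap O T u) (N Φ) k = coord (algebraMap O T u) (N τ) k)
    (hq : δ (qform (coord (algebraMap O T u) (N Φ))) = 0) :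
    ∃ m : Matrix (Fin 2) (Fin 2) (ResidueField O), m.trace = 0 ∧
      ∀ σ ∈ A.decompositionSubgroup ℚ,
        tangentFun N R δ σ = m - R σ * m * R σ⁻¹ := by
  have := neZero_two_of_half hu
  have hu0 := residue_u_ne_zero hu
  have hτ1 : R τ = 1 := hunr A hA τ hτ
  have hc := hN.isAdCocycle hδ
  obtain ⟨L, hL, hL1⟩ := hN.level
  set E := (N τ).map δ with hE
  set Y := (N Φ).map δ with hY
  set M := R Φ with hM
  have htrE : E.trace = 0 := by
    rw [hE, ← tangentFun_mul_rep N R δ τ, hτ1, mul_one]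
    exact hN.trace_cocycle hδ τ
  have hpow : ∀ j : ℕ, (N τ ^ j).map π = 1 ∧ (N τ ^ j).map δ = (j : ResidueField O) • E := by
    intro j
    induction j with
    | zero =>
      refine ⟨by rw [pow_zero, Matrix.map_one _ (map_zero π) (map_one π)], ?_⟩
      rw [pow_zero, pointDer_map_one hδ, Nat.cast_zero, zero_smul]
    | succ j ih =>
      refine ⟨by rw [pow_succ, Matrix.map_mul, ih.1, hN.residue_eq, hτ1, one_mul], ?_⟩
      rw [pow_succ, pointDer_map_mul hδ, ih.1, ih.2, hN.residue_eq, hτ1, one_mul, mul_one,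
        Nat.cast_succ, add_smul, one_smul, add_comm]
  have hcomm : M * E = E * M := by
    have h := congrArg (fun Z : Matrix (Fin 2) (Fin 2) T => Z.map δ) hrel
    simp only [pointDer_map_mul hδ, (hpow v).1, (hpow v).2, hN.residue_eq, hτ1, one_mul, mul_one,
      hv1, one_smul] at h
    rw [add_comm (Y : Matrix (Fin 2) (Fin 2) (ResidueField O))] at h
    exact add_right_cancel h
  have hEk : coord (residue O u) E k = 0 := by
    have hπμ : π μ = 0 := by
      have h := congrArg π hμ
      rw [map_mul, coord_map_point, coord_map_point, hN.residue_eq, hN.residue_eq, hτ1] at h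
      have h0 : coord (residue O u) (1 : Matrix (Fin 2) (Fin 2) (ResidueField O)) k = 0 := by
        fin_cases k <;> simp [coord]
      rw [h0] at h
      exact (mul_eq_zero.mp h).resolve_right hk
    rw [hE, ← pointDer_coord hδ, ← hμ, hδ.2.1, hπμ, hμ0]
    ring
  have hE0 : E = 0 := eq_zero_of_coord hu0 htrE fun i => by
    have h := coord_cross (u := residue O u) hcomm i k
    rw [hEk, mul_zero] at h
    exact (mul_eq_zero.mp h.symm).resolve_left hk
  have htne : M.trace ≠ 0 := fun h0 => by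
    rw [h0, zero_pow two_ne_zero] at htr
    exact NeZero.ne (2 : ResidueField O) (pow_eq_zero_iff two_ne_zero |>.mp
      (show (2 : ResidueField O) ^ 2 = 0 by
        rw [show (2 : ResidueField O) ^ 2 = 4 by norm_num, ← htr]))
  have hYtr : Y.trace = 0 := by
    obtain ⟨o, ho⟩ := hN.det_mem Φ
    rw [qform_coord (by rw [← map_ofNat (algebraMap O T), ← map_mul, hu, map_one]), ho,
      pointDer_sub hδ, hδ.2.2, sub_zero, hδ.2.1, pointDer_algebraMap_mul hδ, map_mul,
      AlgHom.commutes, ← add_mul] at hq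
    have h1 : π (N Φ).trace = M.trace := by
      rw [hM, ← hN.residue_eq]; exact AddMonoidHom.map_trace π.toAddMonoidHom (N Φ)
    have h2 : δ (N Φ).trace = Y.trace := by
      simp only [Matrix.trace_fin_two, hδ.1, hY, Matrix.map_apply]
    rw [h1, h2] at hq
    have h3 : residue O u * M.trace + residue O u * M.trace ≠ 0 := by
      rw [← two_mul]
      exact mul_ne_zero (NeZero.ne 2) (mul_ne_zero hu0 htne)
    rcases mul_eq_zero.mp hq with h | h
    · exact absurd h h3
    · exact (mul_eq_zero.mp h).resolve_left hu0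
  have hortho := hN.adjugate_mul_trace hδ Φ
  rw [Matrix.trace_fin_two, Matrix.mul_apply, Matrix.mul_apply, Fin.sum_univ_two,
    Fin.sum_univ_two, Matrix.adjugate_fin_two, ← hM, ← hY] at hortho
  simp only [Matrix.of_apply, Matrix.cons_val', Matrix.cons_val_zero, Matrix.cons_val_one,
    Matrix.empty_val', Matrix.cons_val_fin_one] at hortho
  have hY11 : Y 1 1 = -Y 0 0 := by
    rw [Matrix.trace_fin_two] at hYtr
    exact eq_neg_of_add_eq_zero_right hYtr
  have hns : M 0 0 ≠ M 1 1 ∨ M 0 1 ≠ 0 ∨ M 1 0 ≠ 0 := by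
    by_contra hcon
    push Not at hcon
    refine hk ?_
    fin_cases k <;> simp [coord, hcon.1, hcon.2.1, hcon.2.2]
  obtain ⟨a, ha⟩ := exists_bracket hns hYtr (by linear_combination -hortho + M 0 0 * hY11)
  obtain ⟨m, hm, hma⟩ := exists_trace_zero R a
  refine ⟨m, hm, fun σ hσ => ?_⟩
  rw [← cobFun_apply, hma]
  have hd : IsAdCocycle R (tangentFun N R δ - cobFun R a) := mem_cocycleSub.mp
    (sub_mem (mem_cocycleSub.mpr hc) (cobFun_mem_cocycleSub ⟨L, hL, fun σ h => (hL1 σ h).1⟩ a))
  refine sub_eq_zero.mp ?_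
  refine eq_zero_of_site hp hv hvp hA hΦ hτ hτx hunr ⟨L, hL, fun σ hσ => (hL1 σ hσ).1⟩ hd ?_ ?_ σ hσ
  · rw [Pi.sub_apply, tangentFun_apply, ← hE, hE0, zero_mul, cobFun_apply, hτ1, one_mul]
    have : R τ⁻¹ = 1 := by
      have h := rep_mul_inv R τ
      rwa [hτ1, one_mul] at h
    rw [this, mul_one, sub_self, sub_zero]
  · rw [Pi.sub_apply, sub_eq_zero]
    calc tangentFun N R δ Φ = tangentFun N R δ Φ * M * R Φ⁻¹ := by
          rw [hM, mul_assoc, rep_mul_inv, mul_one]
      _ = cobFun R a Φ * M * R Φ⁻¹ := by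
          rw [hM, tangentFun_mul_rep, cobFun_mul_rep, ← hY, ← hM, ha]
      _ = cobFun R a Φ := by rw [hM, mul_assoc, rep_mul_inv, mul_one]

end Site

section Invariants

variable {k : Type} [Field k] {ρ : MatRep k} {v : ℕ} {A : ValuationSubring Qbar} {Φ : AbsGal}

/-- At an unramified place trace zero matrices commuting with Frobenius are invariant. -/
theorem mem_adInvariants_of_commute (hv : v.Prime) (hA : A.LiesOverPrime v)
    (hΦ : A.IsFrobeniusAt Φ v) (hunr : UnramifiedAt ρ v)
    (hρ : ∃ L : IntermediateField ℚ Qbar, FiniteDimensional ℚ L ∧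
      ∀ σ : AbsGal, (∀ x ∈ L, σ x = x) → ρ σ = 1)
    {m : Matrix (Fin 2) (Fin 2) k} (hm : m.trace = 0) (h : ρ Φ * m = m * ρ Φ) :
    m ∈ adInvariants ρ A := by
  obtain ⟨L, hL, hL1⟩ := hρ
  have := hL
  simp only [adInvariants, Submodule.mem_inf, Submodule.mem_iInf, LinearMap.mem_eqLocus]
  refine ⟨hm, fun σ hσ => ?_⟩
  obtain ⟨i, s, κ, hs, -, hκ, rfl⟩ := exists_frobenius_word hv hA L hΦ hσ
  have e : ρ (Φ ^ i * s * κ) = ρ Φ ^ i := by
    rw [map_mul, map_mul, map_pow, hunr A hA s hs, hL1 κ hκ, mul_one, mul_one]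
  have hci : ρ (Φ ^ i * s * κ) * m = m * ρ (Φ ^ i * s * κ) := by
    rw [e]; exact (Commute.pow_left h i).eq
  show ρ _ * (m * ρ _⁻¹) = m
  rw [← mul_assoc, hci, mul_assoc, rep_mul_inv, mul_one]

theorem three_le_finrank_adInvariants (hv : v.Prime) (hA : A.LiesOverPrime v)
    (hΦ : A.IsFrobeniusAt Φ v) (hunr : UnramifiedAt ρ v)
    (hρ : ∃ L : IntermediateField ℚ Qbar, FiniteDimensional ℚ L ∧
      ∀ σ : AbsGal, (∀ x ∈ L, σ x = x) → ρ σ = 1)
    {a : k} (ha : ρ Φ = a • 1) : 3 ≤ Module.finrank k (adInvariants ρ A) := by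
  rw [← finrank_trace_zero (k := k)]
  refine Submodule.finrank_mono fun m hm => mem_adInvariants_of_commute hv hA hΦ hunr hρ hm ?_
  rw [ha, smul_mul_assoc, mul_smul_comm, one_mul, mul_one]

theorem one_le_finrank_adInvariants [NeZero (2 : k)] (hv : v.Prime) (hA : A.LiesOverPrime v)
    (hΦ : A.IsFrobeniusAt Φ v) (hunr : UnramifiedAt ρ v)
    (hρ : ∃ L : IntermediateField ℚ Qbar, FiniteDimensional ℚ L ∧
      ∀ σ : AbsGal, (∀ x ∈ L, σ x = x) → ρ σ = 1)
    (ha : ¬ ∃ a : k, ρ Φ = a • 1) : 1 ≤ Module.finrank k (adInvariants ρ A) := by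
  set m := ρ Φ - ((ρ Φ).trace / 2) • 1 with hm
  have hmem : m ∈ adInvariants ρ A := by
    refine mem_adInvariants_of_commute hv hA hΦ hunr hρ ?_ ?_
    · rw [hm, Matrix.trace_sub, Matrix.trace_smul, Matrix.trace_one]
      simp [div_mul_cancel₀ _ (NeZero.ne (2 : k))]
    · rw [hm, mul_sub, sub_mul, mul_smul_comm, smul_mul_assoc, mul_one, one_mul]
  have hne : m ≠ 0 := fun h0 => ha ⟨_, sub_eq_zero.mp h0⟩
  calc 1 = Module.finrank k (Submodule.span k {m}) := (finrank_span_singleton hne).symm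
    _ ≤ _ := Submodule.finrank_mono ((Submodule.span_singleton_le_iff_mem _ _).mpr hmem)

end Invariants

end FLTAgent.LevelLowering

end
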