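import Fermat.Agent.ModularityLifting.Engine.LocalData
import Fermat.Agent.ModularityLifting.Engine.LocalVanish
import Fermat.Agent.LevelLowering.Selmer.SteinbergPlace
import Fermat.Agent.LevelLowering.SiteIdentities
import Fermat.Agent.ModularityLifting.Points.Galois
import Fermat.Agent.TateLocal.AtP

/-!
# Signs of local representations with a common reduction

At a prime where the reduction is ramified the sign of a Steinberg representation
(`residue_steinberg_identity`), and at `p` the sign of a strictly ordinary one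
(`residue_strict_identity`), are determined by the reduction.  So all points share their signs.
-/

set_option autoImplicit false

noncomputable section

open IsLocalRing Matrix

namespace FLTAgent.LevelLowering

open FLTAgent.DefRing FLTAgent.GaloisAttach FLTAgent.ModularityLifting FLTAgent.HeckePoints
  FLTAgent.ModularityLifting.Engine

local notation "Qbar" => AlgebraicClosure ℚ

/-- Frobenius acts by the sign on the quotient by the line of a nonzero nilpotent. -/
theorem nilpotent_mul_frobenius {C : Type} [CommRing C] [IsDomain C]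
    {n Φ : Matrix (Fin 2) (Fin 2) C}
    {v ε : C} (hrel : Φ * n = v • (n * Φ)) (htr : Φ.trace = ε * (v + 1)) (hdet : Φ.det = v)
    (hv : v ≠ 0) (hv1 : v ≠ 1) (hv2 : v + 1 ≠ 0) (hε : ε * ε = 1) : n * Φ = ε • n := by
  have hsq := sq_eq_trace_smul_sub Φ
  rw [htr, hdet] at hsq
  have h : Φ * (Φ * n) = v • (v • (n * (Φ * Φ))) := by
    rw [hrel, mul_smul_comm, ← mul_assoc, hrel, smul_mul_assoc, mul_assoc]
  rw [← mul_assoc, hsq, sub_mul, smul_mul_assoc, smul_mul_assoc, one_mul, hrel, mul_sub,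
    mul_smul_comm, mul_smul_comm, mul_one] at h
  ext i j
  have hij := congrFun (congrFun h i) j
  simp only [Matrix.sub_apply, Matrix.smul_apply, smul_eq_mul] at hij ⊢
  have h0 : v * (1 - v) * (v + 1) * (ε * (n * Φ) i j - n i j) = 0 := by linear_combination hij
  rcases mul_eq_zero.mp h0 with h1 | h1
  · exact absurd h1 (mul_ne_zero (mul_ne_zero hv (sub_ne_zero.mpr hv1.symm)) hv2)
  · linear_combination ε * h1 - (n * Φ) i j * hε

/-- The sign of a triangular representation from two traces. -/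
theorem sign_mul_det_sub_one {C : Type} [CommRing C] {g : GL (Fin 2) C}
    {X Y : Matrix (Fin 2) (Fin 2) C} {ε : C}
    (hX0 : ((g : Matrix (Fin 2) (Fin 2) C) * X * (g⁻¹ : GL (Fin 2) C)) 1 0 = 0)
    (hX1 : ((g : Matrix (Fin 2) (Fin 2) C) * X * (g⁻¹ : GL (Fin 2) C)) 1 1 = 1)
    (hY0 : ((g : Matrix (Fin 2) (Fin 2) C) * Y * (g⁻¹ : GL (Fin 2) C)) 1 0 = 0)
    (hY1 : ((g : Matrix (Fin 2) (Fin 2) C) * Y * (g⁻¹ : GL (Fin 2) C)) 1 1 = ε) :
    (X.det - 1) * ε = X.det * Y.trace - (X * Y).trace := by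
  set X' := (g : Matrix (Fin 2) (Fin 2) C) * X * (g⁻¹ : GL (Fin 2) C) with hX'
  set Y' := (g : Matrix (Fin 2) (Fin 2) C) * Y * (g⁻¹ : GL (Fin 2) C) with hY'
  have hgg : ((g⁻¹ : GL (Fin 2) C) : Matrix (Fin 2) (Fin 2) C) * g = 1 := by
    rw [← Units.val_mul, inv_mul_cancel, Units.val_one]
  have e1 : X'.det = X.det := by rw [hX', Matrix.det_units_conj]
  have e2 : Y'.trace = Y.trace := by rw [hY', Matrix.trace_units_conj]
  have e3 : (X' * Y').trace = (X * Y).trace := by
    have e : X' * Y' = (g : Matrix (Fin 2) (Fin 2) C) * (X * Y) * (g⁻¹ : GL (Fin 2) C) := by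
      rw [hX', hY']
      simp only [mul_assoc]
      rw [← mul_assoc ((g⁻¹ : GL (Fin 2) C) : Matrix (Fin 2) (Fin 2) C) g, hgg, one_mul]
    rw [e, Matrix.trace_units_conj]
  rw [← e1, ← e2, ← e3, Matrix.det_fin_two, Matrix.trace_fin_two, Matrix.trace_fin_two,
    Matrix.mul_apply, Matrix.mul_apply, Fin.sum_univ_two, Fin.sum_univ_two, hX0, hX1, hY0, hY1]
  ring

variable {p : ℕ} [Fact p.Prime] {C : Type} [CommRing C] [IsDomain C] [IsLocalRing C]
  [IsAdicComplete (maximalIdeal C) C]

omit [IsDomain C] [IsAdicComplete (maximalIdeal C) C] in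
/-- Congruent signs are equal. -/
theorem sign_eq_of_residue (hp2 : p ≠ 2) (hpC : (p : C) ∈ maximalIdeal C) {a b : ℤ}
    (ha : a = 1 ∨ a = -1) (hb : b = 1 ∨ b = -1)
    (h : ((a : ℤ) : ResidueField C) = ((b : ℤ) : ResidueField C)) : a = b := by
  have : CharP (ResidueField C) p := (CharP.charP_iff_prime_eq_zero Fact.out).mpr
    (by rw [← map_natCast (residue C)]; exact (residue_eq_zero_iff _).mpr hpC)
  have h2 : (2 : ResidueField C) ≠ 0 := fun h0 =>
    hp2 ((Nat.prime_dvd_prime_iff_eq Fact.out Nat.prime_two).mp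
      ((CharP.cast_eq_zero_iff (ResidueField C) p 2).mp (by exact_mod_cast h0)))
  rcases ha with rfl | rfl <;> rcases hb with rfl | rfl <;> try rfl
  · exact absurd (by push_cast at h; linear_combination h) h2
  · exact absurd (by push_cast at h; linear_combination -h) h2

omit [IsDomain C] in
/-- An element of inertia at `p` where the cyclotomic character is not residually one. -/
theorem exists_inertia_cycChar (hp2 : p ≠ 2) (hpC : (p : C) ∈ maximalIdeal C)
    {A : ValuationSubring Qbar} (hA : A.LiesOverPrime p) :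
    ∃ σ ∈ A.inertiaSubgroupIn ℚ, residue C (cycChar hpC σ) ≠ 1 := by
  obtain ⟨σ, hσ, hne⟩ := TateLocal.exists_inertia_cyc hp2 hA
  refine ⟨σ, hσ, fun h => ?_⟩
  have hu : IsUnit (cyc p σ - 1) := by
    by_contra hu
    refine hne ?_
    have h0 : PadicInt.toZMod (cyc p σ - 1) = 0 := by
      rw [← RingHom.mem_ker, PadicInt.ker_toZMod]
      exact hu
    rwa [map_sub, map_one, sub_eq_zero] at h0
  have h2 := hu.map ((residue C).comp (padicTo hpC))
  rw [RingHom.comp_apply, map_sub, map_sub, map_one, map_one, ← cycChar_apply, h, sub_self] at h2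
  exact not_isUnit_zero h2

/-- The residual identity at a Steinberg representation determines the sign. -/
theorem residue_steinberg_identity [CharZero C] (hpC : (p : C) ∈ maximalIdeal C) {ρ : MatRep C}
    (hρ : MatCont ρ) (hdet : ∀ σ, (ρ σ).det = cycChar hpC σ) {v : ℕ} (hv : v.Prime) (hvp : v ≠ p)
    {ε : ℤ} (hε : ε = 1 ∨ ε = -1) (hst : SteinbergAt ρ v (ε : C)) {A : ValuationSubring Qbar}
    (hA : A.LiesOverPrime v) {x : Qbar} (hx : x ^ p = (v : Qbar)) {τ : AbsGal}
    (hτ : τ ∈ A.inertiaSubgroupIn ℚ) (hτx : τ x ≠ x) {Φ : AbsGal} (hΦ : A.IsFrobeniusAt Φ v) :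
    (mapRep (residue C) ρ τ - 1) * mapRep (residue C) ρ Φ =
      (ε : ResidueField C) • (mapRep (residue C) ρ τ - 1) := by
  have hrel : ρ Φ * (ρ τ - 1) = (v : C) • ((ρ τ - 1) * ρ Φ) :=
    steinberg_rel Fact.out hpC hv hvp hA hx hτ hτx ρ hρ
      (fun σ hσ => by rw [← pow_two]; exact (hst A hA).1 σ hσ) hΦ
  have hεε : (ε : C) * (ε : C) = 1 := by rcases hε with rfl | rfl <;> simp
  have h := nilpotent_mul_frobenius hrel ((hst A hA).2 Φ hΦ)
    (by rw [hdet, cycChar_frobenius hpC hv hvp hA hΦ]) (Nat.cast_ne_zero.mpr hv.ne_zero)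
    (by exact_mod_cast hv.one_lt.ne') (by exact_mod_cast Nat.succ_ne_zero v) hεε
  have h' := congrArg (fun Z : Matrix (Fin 2) (Fin 2) C => (residue C).mapMatrix Z) h
  simp only [map_mul, map_sub, map_one] at h'
  rw [show mapRep (residue C) ρ τ = (residue C).mapMatrix (ρ τ) from rfl,
    show mapRep (residue C) ρ Φ = (residue C).mapMatrix (ρ Φ) from rfl, h']
  ext i j
  by_cases hij : i = j <;> simp [hij, mul_sub]

omit [IsDomain C] in
/-- The residual traces determine the sign at `p`. -/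
theorem residue_strict_identity (hpC : (p : C) ∈ maximalIdeal C) {ρ : MatRep C}
    (hdet : ∀ σ, (ρ σ).det = cycChar hpC σ) {ε : C} (hst : StrictAt ρ p ε)
    {A : ValuationSubring Qbar} (hA : A.LiesOverPrime p) {s : AbsGal}
    (hs : s ∈ A.inertiaSubgroupIn ℚ) {Φ : AbsGal} (hΦ : A.IsFrobeniusAt Φ p) :
    (residue C (cycChar hpC s) - 1) * residue C ε = residue C (cycChar hpC s) *
      (mapRep (residue C) ρ Φ).trace - (mapRep (residue C) ρ (s * Φ)).trace := by
  obtain ⟨g, hg⟩ := hst A hA
  have hsD := Density.inertiaSubgroupIn_le_decompositionSubgroup A hs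
  have h := sign_mul_det_sub_one (hg s hsD).1 ((hg s hsD).2.1 hs)
    (hg Φ hΦ.mem_decompositionSubgroup).1 ((hg Φ hΦ.mem_decompositionSubgroup).2.2 hΦ)
  rw [hdet] at h
  have h' := congrArg (residue C) h
  rw [map_mul, map_sub, map_one, map_sub, map_mul, ← map_mul ρ] at h'
  rw [h']
  congr 2

end FLTAgent.LevelLowering

end
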