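import Fermat.Agent.LevelLowering.Tangent.Cocycle
import Fermat.Agent.LevelLowering.Tangent.Signs
import Fermat.Agent.LevelLowering.Level.PointTrace
import Fermat.Agent.ModularityLifting.Engine.FlatTangent
import Fermat.Agent.ModularityLifting.Start.Main

/-!
# Tangent representations of the algebra of finitely many points

The algebra of traces at finitely many points has a residual point; its representation
(`PointsData.rep`) satisfies every identity holding at all the points, and through it every
tangent vector gets local properties (`exists_steinberg`, `exists_strict`, `flat`).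
-/

set_option autoImplicit false
set_option linter.unusedSectionVars false

noncomputable section

open IsLocalRing Matrix
open scoped TrivSqZeroExt

namespace FLTAgent.LevelLowering

open FLTAgent.Density (GalQ Qbar)
open FLTAgent.DefRing FLTAgent.GaloisAttach FLTAgent.HeckePoints FLTAgent.ModularityLifting
  FLTAgent.ModularityLifting.Engine

/-- Steinberg type is kept by ring homomorphisms. -/
theorem steinbergAt_mapRep {A B : Type} [CommRing A] [CommRing B] (φ : A →+* B) {M : MatRep A}
    {q : ℕ} {ε : ℤ} (h : SteinbergAt M q (ε : A)) : SteinbergAt (mapRep φ M) q (ε : B) := by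
  intro P hP
  refine ⟨fun τ hτ => ?_, fun σ hσ => ?_⟩
  · show (φ.mapMatrix (M τ) - 1) ^ 2 = 0
    rw [← map_one φ.mapMatrix, ← map_sub, ← map_pow, (h P hP).1 τ hτ, map_zero]
  · have e : (mapRep φ M σ).trace = φ (M σ).trace :=
      (AddMonoidHom.map_trace φ.toAddMonoidHom (M σ)).symm
    rw [e, (h P hP).2 σ hσ, map_mul, map_intCast, map_add, map_natCast, map_one]

/-- A ring homomorphism on a matrix minus a scalar. -/
theorem mapMatrix_sub_smul_one {A B : Type} [CommRing A] [CommRing B] (φ : A →+* B)
    (M : Matrix (Fin 2) (Fin 2) A) (c : A) :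
    φ.mapMatrix (M - c • 1) = φ.mapMatrix M - φ c • 1 := by
  rw [map_sub]
  congr 1
  ext i j
  by_cases h : i = j <;> simp [h]

variable {p : ℕ} [Fact p.Prime] {O C : Type} [CommRing O] [IsDomain O] [IsDiscreteValuationRing O]
  [IsAdicComplete (maximalIdeal O) O]
  [CommRing C] [IsDomain C] [IsDiscreteValuationRing C] [IsAdicComplete (maximalIdeal C) C]
  [Algebra O C] [Module.Finite O C] [IsLocalHom (algebraMap O C)]
  {hpC : (p : C) ∈ maximalIdeal C} {X : Type} [Finite X] [Nonempty X] {S' : Finset ℕ}
  {c : X → ℕ → C} {f : X → GalQ → C}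

omit [IsDomain O] [IsDiscreteValuationRing O] [IsAdicComplete (maximalIdeal O) O] in
theorem trAlg_ext {a b : trAlg O f} (h : ∀ x, evalPt x a = evalPt x b) : a = b :=
  Subtype.ext (funext h)

omit [IsDomain O] [IsDiscreteValuationRing O] [IsAdicComplete (maximalIdeal O) O] in
/-- Matrices over the algebra are equal when they are equal at every point. -/
theorem trAlg_matrix_ext {A B : Matrix (Fin 2) (Fin 2) (trAlg O f)}
    (h : ∀ x, (evalPt x).toRingHom.mapMatrix A = (evalPt x).toRingHom.mapMatrix B) : A = B :=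
  Matrix.ext fun i j => trAlg_ext fun x => congrFun (congrFun (h x) i) j

/-- The residual point. -/
theorem exists_residual_point
    (hres : ∀ g, ∃ o : O, ∀ x, f x g - algebraMap O C o ∈ maximalIdeal C) :
    ∃ π : trAlg O f →ₐ[O] ResidueField O, ∀ x t,
      residue C (evalPt x t) = ResidueField.map (algebraMap O C) (π t) := by
  classical
  choose o ho using exists_congr_const hres
  set ι := ResidueField.map (algebraMap O C)
  have key : ∀ x t, residue C (evalPt x t) = ι (residue O (o t)) := fun x t => by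
    rw [ResidueField.map_residue, ← sub_eq_zero, ← map_sub, residue_eq_zero_iff]
    exact ho t x
  let x0 : X := Classical.arbitrary X
  refine ⟨{ toFun := fun t => residue O (o t)
            map_one' := ι.injective (by rw [← key x0, map_one, map_one, map_one])
            map_mul' := fun a b => ι.injective (by
              rw [← key x0, map_mul, map_mul, map_mul, ← key x0, ← key x0])
            map_zero' := ι.injective (by rw [← key x0, map_zero, map_zero, map_zero])
            map_add' := fun a b => ι.injective (by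
              rw [← key x0, map_add, map_add, map_add, ← key x0, ← key x0])
            commutes' := fun r => ι.injective (by
              show ι (residue O (o (algebraMap O _ r))) = ι (residue O r)
              rw [← key x0, AlgHom.commutes, ResidueField.map_residue]) }, key⟩

/-- The congruences of the values of the traces. -/
theorem exists_congr_of_residual (R : ResidualRep p (ResidueField O))
    (hres : ∀ x g, residue C (f x g) = ResidueField.map (algebraMap O C) (R.rep g).trace)
    (g : GalQ) :
    ∃ o : O, ∀ x, f x g - algebraMap O C o ∈ maximalIdeal C := by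
  obtain ⟨o, ho⟩ := residue_surjective (R.rep g).trace
  exact ⟨o, fun x => by
    rw [← residue_eq_zero_iff, map_sub, hres, ← ho, ResidueField.map_residue, sub_self]⟩

/-- The hypotheses describing a family of points with its frame and residual point. -/
structure PointsData (hpC : (p : C) ∈ maximalIdeal C) (S' : Finset ℕ) (c : X → ℕ → C)
    (hpO : (p : O) ∈ maximalIdeal O) (R : ResidualRep p (ResidueField O))
    (F : Frame (trVal O f) ((algebraMap O (trAlg O f)).toMonoidHom.comp (cycChar hpO)))
    (π : trAlg O f →ₐ[O] ResidueField O) : Prop where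
  pts : ∀ x, IsPointTrace hpC S' (c x) (f x)
  res : ∀ x g, residue C (f x g) = ResidueField.map (algebraMap O C) (R.rep g).trace
  conj : F.γ = complexConjugation
  elem : F.r = R.r
  diag : F.α = 1 ∧ F.β = -1
  point : ∀ x t, residue C (evalPt x t) = ResidueField.map (algebraMap O C) (π t)

namespace PointsData

variable {hpO : (p : O) ∈ maximalIdeal O} {R : ResidualRep p (ResidueField O)}
  {F : Frame (trVal O f) ((algebraMap O (trAlg O f)).toMonoidHom.comp (cycChar hpO))}
  {π : trAlg O f →ₐ[O] ResidueField O} (H : PointsData hpC S' c hpO R F π)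

/-- The representation over the algebra. -/
def rep : MatRep (trAlg O f) := F.rep (isPseudoRep_trVal (isPseudoRep_family H.pts hpO))

theorem mapRep_evalPt (x : X) :
    mapRep (evalPt x).toRingHom H.rep = ptRep (isPseudoRep_family H.pts hpO) F x := rfl

theorem spec (x : X) :
    (∀ g, (ptRep (isPseudoRep_family H.pts hpO) F x g).det = cycChar hpC g) ∧
      MatCont (ptRep (isPseudoRep_family H.pts hpO) F x) ∧
      mapRep (residue C) (ptRep (isPseudoRep_family H.pts hpO) F x) =
        mapRep (ResidueField.map (algebraMap O C)) R.rep :=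
  (ptRep_spec H.pts hpO R H.res H.conj H.elem H.diag x).2

theorem residue_eq (σ : AbsGal) : (H.rep σ).map π = R.rep σ := by
  let x0 : X := Classical.arbitrary X
  ext i j
  refine (ResidueField.map (algebraMap O C)).injective ?_
  rw [Matrix.map_apply, ← H.point x0]
  exact congrFun (congrFun (DFunLike.congr_fun (H.spec x0).2.2 σ) i) j

theorem det_rep (σ : AbsGal) : (H.rep σ).det = algebraMap O (trAlg O f) (cycChar hpO σ) :=
  F.det_rep _ σ

variable [CharZero C]

include H in
/-- Elements small at all points vanish to first order. -/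
theorem exists_small (lam : O) (hlam : maximalIdeal O = Ideal.span {lam}) :
    ∃ M : ℕ, ∀ t : trAlg O f, (∀ x, evalPt x t ∈ maximalIdeal C ^ M) →
      π t = 0 ∧ ∀ δ ∈ pointDer π, δ t = 0 := by
  have hlam0 : algebraMap O C lam ≠ 0 := fun h0 => by
    obtain ⟨b, hb⟩ := Ideal.mem_span_singleton.mp (hlam ▸ hpO : (p : O) ∈ Ideal.span {lam})
    have h := congrArg (algebraMap O C) hb
    rw [map_natCast, map_mul, h0, zero_mul] at h
    exact Nat.cast_ne_zero.mpr (Fact.out : p.Prime).ne_zero h
  obtain ⟨ϖ, hϖ⟩ := IsDiscreteValuationRing.exists_irreducible C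
  obtain ⟨e, u, he⟩ := IsDiscreteValuationRing.eq_unit_mul_pow_irreducible hlam0 hϖ
  set N : Submodule O (X → C) := Subalgebra.toSubmodule (trAlg O f) with hN
  obtain ⟨k, hk⟩ := Ideal.exists_pow_inf_eq_pow_smul (maximalIdeal O) N
  refine ⟨e * (k + 1), fun t ht => ?_⟩
  have hmem : (t : X → C) ∈ maximalIdeal O ^ (k + 1) • (⊤ : Submodule O (X → C)) ⊓ N := by
    refine ⟨?_, t.2⟩
    have h' : ∀ x, evalPt x t ∈ Ideal.span {ϖ ^ (e * (k + 1))} := fun x => by
      rw [← Ideal.span_singleton_pow, ← hϖ.maximalIdeal_eq]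
      exact ht x
    choose w hw using fun x => Ideal.mem_span_singleton.mp (h' x)
    have ht' : (t : X → C) = lam ^ (k + 1) • fun x => (↑u⁻¹ : C) ^ (k + 1) * w x := by
      funext x
      show evalPt x t = _
      rw [hw x, Pi.smul_apply, Algebra.smul_def, map_pow, he, mul_pow, pow_mul, ← mul_assoc,
        mul_right_comm ((u : C) ^ (k + 1)), ← mul_pow, Units.mul_inv, one_pow, one_mul]
    rw [ht']
    exact Submodule.smul_mem_smul
      (Ideal.pow_mem_pow (hlam ▸ Ideal.mem_span_singleton_self lam) (k + 1)) Submodule.mem_top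
  rw [hk (k + 1) (Nat.le_succ k), show k + 1 - k = 1 by omega, pow_one] at hmem
  have h2 : (t : X → C) ∈ maximalIdeal O • N := Submodule.smul_mono le_rfl inf_le_right hmem
  rw [hlam, Submodule.ideal_span_singleton_smul] at h2
  obtain ⟨z, hz, hzt⟩ := (Submodule.mem_smul_pointwise_iff_exists _ _ _).mp h2
  have ht2 : t = algebraMap O (trAlg O f) lam * ⟨z, hz⟩ := Subtype.ext (by
    rw [← hzt, Algebra.smul_def]
    rfl)
  have hl : residue O lam = 0 :=
    (residue_eq_zero_iff lam).mpr (hlam ▸ Ideal.mem_span_singleton_self lam)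
  refine ⟨?_, fun δ hδ => ?_⟩
  · rw [ht2, map_mul, AlgHom.commutes, ResidueField.algebraMap_eq, hl, zero_mul]
  · rw [ht2, pointDer_algebraMap_mul hδ, hl, zero_mul]

theorem isTangentRep (lam : O) (hlam : maximalIdeal O = Ideal.span {lam}) :
    IsTangentRep π H.rep R.rep where
  residue_eq := H.residue_eq
  det_mem σ := ⟨_, H.det_rep σ⟩
  level := by
    obtain ⟨M, hM⟩ := H.exists_small lam hlam
    choose L hL hLM using fun x => (H.spec x).2.1 M
    have := hL
    refine ⟨⨆ x, L x, IntermediateField.finiteDimensional_iSup_of_finite, fun σ hσ => ?_⟩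
    have hent : ∀ i j, π ((H.rep σ - 1) i j) = 0 ∧ ∀ δ ∈ pointDer π, δ ((H.rep σ - 1) i j) = 0 :=
      fun i j => hM _ fun x => by
        have h := hLM x σ (fun y hy => hσ y (le_iSup L x hy)) i j
        convert h using 1
        rw [Matrix.sub_apply, Matrix.sub_apply, map_sub, ← H.mapRep_evalPt x, mapRep_apply]
        congr 1
        rcases eq_or_ne i j with rfl | hij
        · rw [Matrix.one_apply_eq, Matrix.one_apply_eq, map_one]
        · rw [Matrix.one_apply_ne hij, Matrix.one_apply_ne hij, map_zero]
    refine ⟨?_, fun δ hδ => ?_⟩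
    · rw [← H.residue_eq σ]
      ext i j
      have h := (hent i j).1
      rw [Matrix.sub_apply, map_sub, sub_eq_zero] at h
      rw [Matrix.map_apply, h]
      rcases eq_or_ne i j with rfl | hij
      · rw [Matrix.one_apply_eq, Matrix.one_apply_eq, map_one]
      · rw [Matrix.one_apply_ne hij, Matrix.one_apply_ne hij, map_zero]
    · ext i j
      have h := (hent i j).2 δ hδ
      rw [Matrix.sub_apply, pointDer_sub hδ, sub_eq_zero] at h
      rw [Matrix.map_apply, h]
      rcases eq_or_ne i j with rfl | hij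
      · rw [Matrix.one_apply_eq, pointDer_one hδ, Matrix.zero_apply]
      · rw [Matrix.one_apply_ne hij, pointDer_zero hδ, Matrix.zero_apply]

/-- Unramified at all points is unramified over the algebra. -/
theorem unramified {q : ℕ} (h : ∀ x, UnramifiedAt (ptRep (isPseudoRep_family H.pts hpO) F x) q) :
    UnramifiedAt H.rep q := fun P hP σ hσ => trAlg_matrix_ext fun x => by
  rw [map_one]
  exact h x P hP σ hσ

/-- The tame relation. -/
theorem tame_relation {v : ℕ} (hv : v.Prime) (hvp : v ≠ p) (hunr : UnramifiedAt R.rep v)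
    {A : ValuationSubring Qbar} (hA : A.LiesOverPrime v) {x : Qbar} (hx : x ^ p = (v : Qbar))
    {τ : AbsGal} (hτ : τ ∈ A.inertiaSubgroupIn ℚ) (hτx : τ x ≠ x) {Φ : AbsGal}
    (hΦ : A.IsFrobeniusAt Φ v) : H.rep Φ * H.rep τ = H.rep τ ^ v * H.rep Φ := by
  refine trAlg_matrix_ext fun y => ?_
  rw [map_mul, map_mul, map_pow]
  refine (tame_relations Fact.out hpC hv hvp hA hx hτ hτx
    (ptRep (isPseudoRep_family H.pts hpO) F y) (H.spec y).2.1 fun σ hσ i k => ?_).2 Φ hΦ
  rw [Matrix.mul_apply]
  refine sum_mem fun m _ => Ideal.mul_mem_left _ _ ?_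
  rw [← residue_eq_zero_iff]
  have h := congrFun (congrFun (DFunLike.congr_fun (H.spec y).2.2 σ) m) k
  rw [mapRep_eq_map, mapRep_eq_map, hunr A hA σ hσ, Matrix.map_apply, Matrix.map_apply] at h
  rw [Matrix.sub_apply, map_sub, h]
  rcases eq_or_ne m k with rfl | hmk
  · rw [Matrix.one_apply_eq, Matrix.one_apply_eq, map_one, map_one, sub_self]
  · rw [Matrix.one_apply_ne hmk, Matrix.one_apply_ne hmk, map_zero, map_zero, sub_self]

/-- At a ramified Steinberg place all points have one sign. -/
theorem exists_steinberg (hp2 : p ≠ 2) [CharP (ResidueField O) p] {v : ℕ} (hv : v.Prime)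
    (hvp : v ≠ p) (hram : ¬ UnramifiedAt R.rep v)
    (hst : ∀ x, ∃ ε : ℤ, (ε = 1 ∨ ε = -1) ∧
      SteinbergAt (ptRep (isPseudoRep_family H.pts hpO) F x) v (ε : C)) :
    ∃ ε : ℤ, SteinbergAt H.rep v (ε : trAlg O f) := by
  choose ε hε hst using hst
  let x0 : X := Classical.arbitrary X
  set A := Start.place v
  have hA : A.LiesOverPrime v := Start.place_spec v hv
  obtain ⟨y, hy, τ, hτ, hτy⟩ := exists_tame_element (Fact.out : p.Prime) hv hA
  obtain ⟨Φ, hΦ⟩ := Density.exists_isFrobeniusAt A hv hA
  set ι := ResidueField.map (algebraMap O C)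
  have hinj : Function.Injective (ι.mapMatrix (m := Fin 2)) := fun a b h =>
    Matrix.ext fun i j => ι.injective (congrFun (congrFun h i) j)
  have hu : ∀ σ ∈ A.inertiaSubgroupIn ℚ, (R.rep σ - 1) ^ 2 = 0 := fun σ hσ => hinj (by
    have h := congrArg (residue C).mapMatrix ((hst x0 A hA).1 σ hσ)
    rw [map_pow, map_sub, map_one, map_zero] at h
    rw [map_pow, map_sub, map_one, map_zero]
    have e : (residue C).mapMatrix (ptRep (isPseudoRep_family H.pts hpO) F x0 σ) =
        ι.mapMatrix (R.rep σ) := DFunLike.congr_fun (H.spec x0).2.2 σ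
    rwa [e] at h)
  have hne : R.rep τ ≠ 1 := tame_ne_one R.finite hv hvp hA hy hτ hτy hu hram
  have hid : ∀ x, (ι.mapMatrix (R.rep τ) - 1) * ι.mapMatrix (R.rep Φ) =
      (ε x : ResidueField C) • (ι.mapMatrix (R.rep τ) - 1) := fun x => by
    have h := residue_steinberg_identity hpC (H.spec x).2.1 (H.spec x).1 hv hvp (hε x) (hst x) hA hy
      hτ hτy hΦ
    rwa [(H.spec x).2.2] at h
  have hsame : ∀ x, ε x = ε x0 := fun x => by
    refine sign_eq_of_residue hp2 hpC (hε x) (hε x0) ?_
    by_contra hne'
    have h := (hid x).symm.trans (hid x0)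
    rw [← sub_eq_zero, ← sub_smul, smul_eq_zero] at h
    rcases h with h | h
    · exact hne' (sub_eq_zero.mp h)
    · exact hne (hinj (by rw [map_one]; exact sub_eq_zero.mp h))
  refine ⟨ε x0, fun P hP => ⟨fun σ hσ => trAlg_matrix_ext fun x => ?_,
    fun σ hσ => trAlg_ext fun x => ?_⟩⟩
  · rw [map_pow, map_sub, map_one, map_zero]
    exact (hst x P hP).1 σ hσ
  · rw [map_mul, map_intCast, map_add, map_natCast, map_one, ← hsame x]
    exact (AddMonoidHom.map_trace (evalPt x).toRingHom.toAddMonoidHom (H.rep σ)).trans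
      ((hst x P hP).2 σ hσ)

/-- The common line at `p`. -/
theorem exists_strict (hp2 : p ≠ 2)
    (hst : ∀ x, ∃ ε : ℤ, (ε = 1 ∨ ε = -1) ∧
      StrictAt (ptRep (isPseudoRep_family H.pts hpO) F x) p (ε : C)) :
    ∃ a l : AbsGal → O,
      (∀ σ, l σ * l σ = 1 ∧ a σ * l σ = cycChar hpO σ) ∧
      ∀ σ ∈ (Start.place p).decompositionSubgroup ℚ, ∀ τ ∈ (Start.place p).decompositionSubgroup ℚ,
        (H.rep σ - algebraMap O (trAlg O f) (a σ) • 1) *
          (H.rep τ - algebraMap O (trAlg O f) (l τ) • 1) = 0 := by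
  classical
  choose ε hε hst using hst
  let x0 : X := Classical.arbitrary X
  set A := Start.place p
  have hA : A.LiesOverPrime p := Start.place_spec p Fact.out
  have hΦ := Start.frob_spec p Fact.out
  obtain ⟨s, hs, hs1⟩ := exists_inertia_cycChar hp2 hpC hA
  have hsame : ∀ x, ε x = ε x0 := fun x => by
    refine sign_eq_of_residue hp2 hpC (hε x) (hε x0)
      (mul_left_cancel₀ (sub_ne_zero.mpr hs1) ?_)
    have h1 := residue_strict_identity hpC (H.spec x).1 (hst x) hA hs hΦ
    have h2 := residue_strict_identity hpC (H.spec x0).1 (hst x0) hA hs hΦ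
    rw [(H.spec x).2.2, map_intCast] at h1
    rw [(H.spec x0).2.2, map_intCast] at h2
    rw [h1, h2]
  set εO : O := (ε x0 : O) with hεO
  set εC : C := (ε x0 : C) with hεC
  have hεC1 : εC = 1 ∨ εC = -1 := (hε x0).imp (fun h => by simp [εC, h]) fun h => by simp [εC, h]
  have h2C : IsUnit (2 : C) := by
    rw [← residue_ne_zero_iff_isUnit, map_ofNat]
    intro h0
    have : CharP (ResidueField C) p := (CharP.charP_iff_prime_eq_zero Fact.out).mpr
      (by rw [← map_natCast (residue C)]; exact (residue_eq_zero_iff _).mpr hpC)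
    exact hp2 ((Nat.prime_dvd_prime_iff_eq Fact.out Nat.prime_two).mp
      ((CharP.cast_eq_zero_iff (ResidueField C) p 2).mp (by exact_mod_cast h0)))
  let Nx : X → MatRep C := fun x => ptRep (isPseudoRep_family H.pts hpO) F x
  have hl : ∀ σ : A.decompositionSubgroup ℚ, ∃ i : ℕ, ∀ x, ∀ g : GL (Fin 2) C, _ := fun σ =>
    exists_common_sign (Fact.out : p.Prime) h2C hεC1 (fun x => (H.spec x).2.1) hA hΦ σ.2 (N := Nx)
  choose ex hex using hl
  let l : AbsGal → O := fun σ =>
    if h : σ ∈ A.decompositionSubgroup ℚ then εO ^ ex ⟨σ, h⟩ else 1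
  have hl2 : ∀ σ, l σ * l σ = 1 := fun σ => by
    simp only [l]
    split
    · rw [← mul_pow]
      rcases hε x0 with h | h <;> simp [εO, h]
    · exact one_mul 1
  let a : AbsGal → O := fun σ => cycChar hpO σ * l σ
  refine ⟨a, l, fun σ => ⟨hl2 σ, by simp only [a]; rw [mul_assoc, hl2, mul_one]⟩,
    fun σ hσ τ hτ => trAlg_matrix_ext fun x => ?_⟩
  obtain ⟨g, hg⟩ := hst x A hA
  rw [hsame x] at hg
  have h11 : ∀ ρ' (hρ' : ρ' ∈ A.decompositionSubgroup ℚ),
      ((g : Matrix (Fin 2) (Fin 2) C) * Nx x ρ' * (g⁻¹ : GL (Fin 2) C)) 1 1 =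
        algebraMap O C (l ρ') := fun ρ' hρ' => by
    simp only [l, dif_pos hρ', εO, map_pow, map_intCast]
    exact hex ⟨ρ', hρ'⟩ x g hg
  rw [map_mul, map_zero, mapMatrix_sub_smul_one, mapMatrix_sub_smul_one,
    show (evalPt x).toRingHom (algebraMap O _ (a σ)) = algebraMap O C (a σ) from
      (evalPt x).commutes _,
    show (evalPt x).toRingHom (algebraMap O _ (l τ)) = algebraMap O C (l τ) from
      (evalPt x).commutes _]
  refine upper_product_eq_zero (hg σ hσ).1 (hg τ hτ).1 (h11 σ hσ) (h11 τ hτ)
    (by rw [← map_mul, hl2, map_one]) ?_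
  simp only [a, map_mul]
  congr 1
  rw [show (evalPt x).toRingHom.mapMatrix (H.rep σ) =
    ptRep (isPseudoRep_family H.pts hpO) F x σ from rfl, det_ptRep]

/-- Flat at all points gives flat deformations. -/
theorem flat [Finite (ResidueField O)] [Finite (ResidueField C)] (lam : O)
    (hlam : maximalIdeal O = Ideal.span {lam}) {δ : trAlg O f → ResidueField O}
    (hδ : δ ∈ pointDer π) (h : ∀ x, FlatAt (ptRep (isPseudoRep_family H.pts hpO) F x) p) :
    FlatAt (mapRep (tangentHom hδ) H.rep) p := by
  obtain ⟨M, hM⟩ := H.exists_small lam hlam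
  have : Finite (TrivSqZeroExt (ResidueField O) (ResidueField O)) :=
    inferInstanceAs (Finite (ResidueField O × ResidueField O))
  have : Finite (C ⧸ maximalIdeal C ^ M) := DefRing.finite_quotient_maximalIdeal_pow M
  refine flatAt_of_points (A := trAlg O f) (C := C)
    (K := TrivSqZeroExt (ResidueField O) (ResidueField O))
    (fun x => (evalPt x).toRingHom) (maximalIdeal C ^ M) (tangentHom hδ)
    (TrivSqZeroExt.inr 1) (fun z => ?_) (fun t ht => ?_) H.rep h
  · obtain ⟨o1, ho1⟩ := residue_surjective z.fst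
    obtain ⟨o2, ho2⟩ := residue_surjective z.snd
    refine ⟨algebraMap O _ o1, algebraMap O _ o2, ?_⟩
    rw [tangentHom_algebraMap, tangentHom_algebraMap, ho1, ho2]
    ext <;> simp [MulOpposite.smul_eq_mul_unop]
  · obtain ⟨h1, h2⟩ := hM t ht
    rw [tangentHom_apply, h1, h2 δ hδ, TrivSqZeroExt.inl_zero, TrivSqZeroExt.inr_zero, add_zero]

end PointsData

end FLTAgent.LevelLowering

end
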